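/-
S59 / non-minimal engine — pure algebra (helper585): a unimodularity criterion.

`bijective_of_radical_mod_primes`: a bilinear form `B` on a finite free `ℤ`-module `L` such that,
for every prime `p`, every `x` with `p ∣ B y x` for all `y` lies in `p L`, is PERFECT on the left:
`x ↦ B x` is a bijection `L → Dual ℤ L`.
-/
import Mathlib

set_option autoImplicit false

namespace Fermat.Agent.S59.H585

open Module

section Unimod

variable {L : Type*} [AddCommGroup L] [Module.Finite ℤ L] [Module.Free ℤ L]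

/-- An integer which is not a unit is divisible by a prime. -/
theorem exists_prime_dvd_of_not_isUnit {d : ℤ} (hd : ¬ IsUnit d) : ∃ p : ℕ, p.Prime ∧ (p : ℤ) ∣ d := by
  have h1 : d.natAbs ≠ 1 := fun h => hd (Int.isUnit_iff_natAbs_eq.mpr h)
  obtain ⟨p, hp, hpd⟩ := Nat.exists_prime_and_dvd h1
  exact ⟨p, hp, Int.natCast_dvd.mpr hpd⟩

omit [Module.Finite ℤ L] [Module.Free ℤ L] in
/-- The Gram matrix of `B` in the basis `b` has unit determinant if the radical of `B` modulo every
prime `p` is `p L`. -/
theorem isUnit_det_gram {ι : Type*} [Fintype ι] [DecidableEq ι] (b : Basis ι ℤ L)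
    (B : L →ₗ[ℤ] L →ₗ[ℤ] ℤ)
    (h : ∀ p : ℕ, p.Prime → ∀ x : L, (∀ y : L, (p : ℤ) ∣ B y x) → ∃ x' : L, x = (p : ℤ) • x') :
    IsUnit (Matrix.of fun i j => B (b i) (b j)).det := by
  classical
  set G : Matrix ι ι ℤ := Matrix.of fun i j => B (b i) (b j) with hG
  by_contra hdet
  obtain ⟨p, hp, hpd⟩ := exists_prime_dvd_of_not_isUnit hdet
  have : Fact p.Prime := ⟨hp⟩
  -- the reduction of `G` is singular
  have hdet0 : (G.map (Int.castRingHom (ZMod p))).det = 0 := by
    rw [← RingHom.mapMatrix_apply, ← RingHom.map_det]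
    exact (ZMod.intCast_zmod_eq_zero_iff_dvd _ _).mpr hpd
  obtain ⟨vbar, hv0, hv⟩ := Matrix.exists_mulVec_eq_zero_iff.mpr hdet0
  -- lift the kernel vector
  let v : ι → ℤ := fun i => ((vbar i).val : ℤ)
  have hvv : ∀ i, ((v i : ℤ) : ZMod p) = vbar i := fun i => by
    show (((vbar i).val : ℤ) : ZMod p) = vbar i
    rw [Int.cast_natCast, ZMod.natCast_zmod_val]
  obtain ⟨x, hxdef⟩ : ∃ x : L, x = ∑ j, v j • b j := ⟨_, rfl⟩
  have hBx : ∀ i, B (b i) x = ∑ j, G i j * v j := by
    intro i
    rw [hxdef, map_sum]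
    refine Finset.sum_congr rfl fun j _ => ?_
    rw [map_smul, smul_eq_mul, mul_comm]
    rfl
  have hdiv : ∀ i, (p : ℤ) ∣ B (b i) x := by
    intro i
    rw [← ZMod.intCast_zmod_eq_zero_iff_dvd, hBx]
    have e : ((∑ j, G i j * v j : ℤ) : ZMod p) =
        ((G.map (Int.castRingHom (ZMod p))).mulVec vbar) i := by
      rw [Int.cast_sum, Matrix.mulVec, dotProduct]
      refine Finset.sum_congr rfl fun j _ => ?_
      rw [Int.cast_mul, hvv]
      rfl
    rw [e, hv]
    rfl
  have hdiv' : ∀ y : L, (p : ℤ) ∣ B y x := by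
    intro y
    rw [← b.sum_repr y, map_sum, LinearMap.sum_apply]
    refine Finset.dvd_sum fun i _ => ?_
    rw [map_smul, LinearMap.smul_apply, smul_eq_mul]
    exact Dvd.dvd.mul_left (hdiv i) _
  obtain ⟨x', hx'⟩ := h p hp x hdiv'
  -- coordinates of `x` are divisible by `p`
  have hrepr : ∀ i, b.repr x i = v i := by
    intro i
    rw [hxdef, map_sum, Finsupp.finsetSum_apply]
    rw [Finset.sum_eq_single i]
    · rw [map_smul, Finsupp.smul_apply, Basis.repr_self, Finsupp.single_eq_same, smul_eq_mul,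
        mul_one]
    · intro j _ hj
      rw [map_smul, Finsupp.smul_apply, Basis.repr_self, Finsupp.single_eq_of_ne hj.symm,
        smul_zero]
    · intro hi
      exact absurd (Finset.mem_univ i) hi
  apply hv0
  funext i
  have h1 : v i = (p : ℤ) * b.repr x' i := by
    rw [← hrepr i, hx', map_smul, Finsupp.smul_apply, smul_eq_mul]
  rw [Pi.zero_apply, ← hvv i, h1, Int.cast_mul, Int.cast_natCast, ZMod.natCast_self, zero_mul]

/-- **Unimodularity criterion.**  If the radical of `B` modulo every prime `p` is `p L`, then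
`x ↦ B x` is a bijection `L → Dual ℤ L`. -/
theorem bijective_of_radical_mod_primes (B : L →ₗ[ℤ] L →ₗ[ℤ] ℤ)
    (h : ∀ p : ℕ, p.Prime → ∀ x : L, (∀ y : L, (p : ℤ) ∣ B y x) → ∃ x' : L, x = (p : ℤ) • x') :
    Function.Bijective B := by
  classical
  let ι := Module.Free.ChooseBasisIndex ℤ L
  let b : Basis ι ℤ L := Module.Free.chooseBasis ℤ L
  set G : Matrix ι ι ℤ := Matrix.of fun i j => B (b i) (b j) with hG
  have hunit : IsUnit G.det := isUnit_det_gram b B h
  have hGu : IsUnit G := (Matrix.isUnit_iff_isUnit_det G).mpr hunit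
  have hBv : ∀ (x : L) (j : ι), B x (b j) = (Matrix.vecMul (fun i => b.repr x i) G) j := by
    intro x j
    rw [Matrix.vecMul, dotProduct]
    conv_lhs => rw [← b.sum_repr x]
    rw [map_sum, LinearMap.sum_apply]
    refine Finset.sum_congr rfl fun i _ => ?_
    rw [map_smul, LinearMap.smul_apply, smul_eq_mul]
    rfl
  constructor
  · -- injective
    rw [← LinearMap.ker_eq_bot, LinearMap.ker_eq_bot']
    intro x hx
    have h0 : Matrix.vecMul (fun i => b.repr x i) G = 0 := by
      funext j
      rw [← hBv x j, hx]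
      rfl
    have h1 : (fun i => b.repr x i) = 0 := by
      have hinj := Matrix.vecMul_injective_of_isUnit hGu
      exact hinj (h0.trans (Matrix.zero_vecMul G).symm)
    apply b.repr.injective
    rw [map_zero]
    ext i
    exact congrFun h1 i
  · -- surjective
    intro f
    obtain ⟨w, hw⟩ := (Matrix.vecMul_surjective_iff_isUnit.mpr hGu) (fun j => f (b j))
    refine ⟨∑ i, w i • b i, ?_⟩
    apply b.ext
    intro j
    rw [hBv]
    have hrepr : (fun i => b.repr (∑ i, w i • b i) i) = w := by
      funext i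
      rw [map_sum, Finsupp.finsetSum_apply, Finset.sum_eq_single i]
      · rw [map_smul, Finsupp.smul_apply, Basis.repr_self, Finsupp.single_eq_same, smul_eq_mul,
          mul_one]
      · intro k _ hk
        rw [map_smul, Finsupp.smul_apply, Basis.repr_self, Finsupp.single_eq_of_ne hk.symm,
          smul_zero]
      · intro hi
        exact absurd (Finset.mem_univ i) hi
    have hw' : Matrix.vecMul w G = fun j => f (b j) := hw
    rw [hrepr, hw']

end Unimod

end Fermat.Agent.S59.H585
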