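/-
S59 / non-minimal engine (helper585): INTEGRAL POINCARÉ DUALITY for the cuspidal classes of a
subgroup `Γ ≤ SL(2,ℤ)` of finite index with `-1 ∈ Γ`.

Built on the Manin pairing of row S41 (`Fermat.Agent.S41.Spec.maninPairing`, block PD).

* `cuspSub R Γ A`            : the cuspidal classes `Γ → A` as an `R`-submodule of `Hom(Γ, A)`;
* `maninPairing_add_left`, `maninPairing_smul_left`, `maninPairing_skew` (any commutative ring);
* `maninPairing_map`         : compatibility with base change along a ring homomorphism;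
* `exists_lift`              : cuspidal classes mod `p` lift to `ℤ` (any `Γ`);
* `exists_eq_smul_of_cast_eq_zero` : `C_Γ(ℤ)` is saturated in `Hom(Γ, ℤ)`;
* `intPairing`               : the `ℤ`-bilinear Manin pairing on `C_Γ(ℤ)`;
* `intPairing_bijective`     : it is PERFECT (unimodular): `C_Γ(ℤ) ≃ Hom_ℤ(C_Γ(ℤ), ℤ)`.
-/
import Fermat.Agent.S41.H585.PDMain
import Fermat.Agent.S59.H585.Unimod

set_option autoImplicit false

namespace Fermat.Agent.S59.H585

open CongruenceSubgroup Matrix.SpecialLinearGroup ModularCurve.Period ModularGroup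
open Fermat.Agent.S41.Spec
open scoped MatrixGroups

/-! ## Unconditional assembly statements of block PD (general `Γ`) -/

/-- (A1) the pairing is computed by any representatives. -/
theorem pairingEq : ManinPairingEqStatement.{0} :=
  Fermat.Agent.S41.H221.maninPairingEq Fermat.Agent.S41.H460.maninRepZero
    Fermat.Agent.S41.H460.maninRepLinear Fermat.Agent.S41.H585.maninRepParabolic
    Fermat.Agent.S41.H281.maninSkew

/-- (A2) bilinear, skew-symmetric, nondegenerate over fields. -/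
theorem pairingPD : ManinPairingPDStatement.{0} :=
  Fermat.Agent.S41.H221.maninPairingPD pairingEq Fermat.Agent.S41.H460.maninRepExists
    Fermat.Agent.S41.H460.maninRepInvariant Fermat.Agent.S41.H460.maninRepLinear
    Fermat.Agent.S41.H585.maninRepRealize Fermat.Agent.S41.H585.maninRepTorsionU
    Fermat.Agent.S41.H585.maninRepParabolic Fermat.Agent.S41.H281.maninPerp
    Fermat.Agent.S41.H281.maninSkew Fermat.Agent.S41.H281.maninParDataOf

/-! ## Cuspidal classes -/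

section Cusp

variable {Γ : Subgroup SL(2, ℤ)}

/-- The cuspidal classes `Γ → A` as a submodule of `Hom(Γ, A)`. -/
def cuspSub (R : Type*) [Semiring R] (Γ : Subgroup SL(2, ℤ)) (A : Type*) [AddCommGroup A]
    [Module R A] : Submodule R (Additive Γ →+ A) where
  carrier := {φ | IsCuspidalOn Γ φ}
  zero_mem' := ⟨fun _ _ => rfl, fun _ _ => rfl⟩
  add_mem' := by
    intro φ ψ hφ hψ
    refine ⟨fun γ hγ => ?_, fun γ hγ => ?_⟩
    · show φ (Additive.ofMul γ) + ψ (Additive.ofMul γ) = 0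
      rw [hφ.1 γ hγ, hψ.1 γ hγ, add_zero]
    · show φ (Additive.ofMul γ) + ψ (Additive.ofMul γ) = 0
      rw [hφ.2 γ hγ, hψ.2 γ hγ, add_zero]
  smul_mem' := by
    intro c φ hφ
    refine ⟨fun γ hγ => ?_, fun γ hγ => ?_⟩
    · show c • φ (Additive.ofMul γ) = 0
      rw [hφ.1 γ hγ, smul_zero]
    · show c • φ (Additive.ofMul γ) = 0
      rw [hφ.2 γ hγ, smul_zero]

theorem mem_cuspSub {R : Type*} [Semiring R] {A : Type*} [AddCommGroup A] [Module R A]
    {φ : Additive Γ →+ A} : φ ∈ cuspSub R Γ A ↔ IsCuspidalOn Γ φ := Iff.rfl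

theorem isCuspidalOn_comp {A B : Type*} [AddCommGroup A] [AddCommGroup B] (π : A →+ B)
    {φ : Additive Γ →+ A} (hφ : IsCuspidalOn Γ φ) : IsCuspidalOn Γ (π.comp φ) := by
  refine ⟨fun γ hγ => ?_, fun γ hγ => ?_⟩
  · show π (φ (Additive.ofMul γ)) = 0
    rw [hφ.1 γ hγ, map_zero]
  · show π (φ (Additive.ofMul γ)) = 0
    rw [hφ.2 γ hγ, map_zero]

theorem isCuspidalOn_add {A : Type*} [AddCommGroup A] {φ ψ : Additive Γ →+ A}
    (hφ : IsCuspidalOn Γ φ) (hψ : IsCuspidalOn Γ ψ) : IsCuspidalOn Γ (φ + ψ) :=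
  (cuspSub ℤ Γ A).add_mem hφ hψ

theorem isParData_map {A B : Type*} [AddCommGroup A] [AddCommGroup B] (π : A →+ B)
    {m e : SL(2, ℤ) ⧸ Γ → A} (h : IsParData Γ m e) :
    IsParData Γ (fun x => π (m x)) (fun x => π (e x)) := by
  intro x
  show π (e (T • x)) - π (e x) = π (m ((S * T) • x)) - π (m x)
  rw [← map_sub, ← map_sub, h x]

variable [Γ.FiniteIndex]

instance finite_quot : Finite (SL(2, ℤ) ⧸ Γ) := Subgroup.finite_quotient_of_finiteIndex

/-- Manin representative and parabolic data of a cuspidal class. -/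
theorem exists_reps (hneg : (-1 : SL(2, ℤ)) ∈ Γ) {A : Type} [AddCommGroup A]
    {φ : Additive Γ →+ A} (hφ : IsCuspidalOn Γ φ) :
    ∃ m e : SL(2, ℤ) ⧸ Γ → A, IsManinRep Γ φ m ∧ IsParData Γ m e := by
  obtain ⟨m, hm⟩ := Fermat.Agent.S41.H460.maninRepExists Γ hneg A φ hφ.2
  obtain ⟨e, he⟩ := (Fermat.Agent.S41.H585.maninRepParabolic Γ hneg A φ m hm).mp hφ.1
  exact ⟨m, e, hm, he⟩

/-- A class with a Manin representative admitting parabolic data is cuspidal. -/
theorem isCuspidalOn_of_reps (hneg : (-1 : SL(2, ℤ)) ∈ Γ) {A : Type} [AddCommGroup A]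
    {φ : Additive Γ →+ A} {m e : SL(2, ℤ) ⧸ Γ → A} (hm : IsManinRep Γ φ m)
    (he : IsParData Γ m e) : IsCuspidalOn Γ φ :=
  ⟨(Fermat.Agent.S41.H585.maninRepParabolic Γ hneg A φ m hm).mpr ⟨e, he⟩,
    Fermat.Agent.S41.H585.maninRepTorsionU Γ hneg A φ m hm⟩

end Cusp

/-! ## The pairing over a commutative ring -/

section Pairing

variable {Γ : Subgroup SL(2, ℤ)} [Γ.FiniteIndex] {R : Type} [CommRing R]

theorem maninPairing_eq_form (hneg : (-1 : SL(2, ℤ)) ∈ Γ) {φ ψ : Additive Γ →+ R}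
    (hφ : IsCuspidalOn Γ φ) {m m' e' : SL(2, ℤ) ⧸ Γ → R} (hm : IsManinRep Γ φ m)
    (hm' : IsManinRep Γ ψ m') (he' : IsParData Γ m' e') :
    maninPairing Γ φ ψ = maninForm Γ m e' :=
  pairingEq Γ hneg R φ ψ m m' e' hφ.1 hm hm' he'

theorem maninPairing_add_left (hneg : (-1 : SL(2, ℤ)) ∈ Γ) {φ φ' ψ : Additive Γ →+ R}
    (hφ : IsCuspidalOn Γ φ) (hφ' : IsCuspidalOn Γ φ') (hψ : IsCuspidalOn Γ ψ) :
    maninPairing Γ (φ + φ') ψ = maninPairing Γ φ ψ + maninPairing Γ φ' ψ := by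
  obtain ⟨m, e, hm, -⟩ := exists_reps hneg hφ
  obtain ⟨m', e', hm', -⟩ := exists_reps hneg hφ'
  obtain ⟨n, f, hn, hf⟩ := exists_reps hneg hψ
  have hsum := (Fermat.Agent.S41.H460.maninRepLinear Γ R R (AddMonoidHom.id R) φ φ' m m' hm hm').1
  rw [maninPairing_eq_form hneg (isCuspidalOn_add hφ hφ') hsum hn hf,
    maninPairing_eq_form hneg hφ hm hn hf, maninPairing_eq_form hneg hφ' hm' hn hf,
    Fermat.Agent.S41.H221.maninForm_add_left]

omit [Γ.FiniteIndex] in
theorem isManinRep_smul (c : R) {φ : Additive Γ →+ R} {m : SL(2, ℤ) ⧸ Γ → R}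
    (hm : IsManinRep Γ φ m) : IsManinRep Γ (c • φ) (fun x => c * m x) := by
  have h := (Fermat.Agent.S41.H460.maninRepLinear Γ R R (AddMonoidHom.mulLeft c) φ φ m m hm hm).2.2
  have e1 : (AddMonoidHom.mulLeft c).comp φ = c • φ := by
    ext γ
    simp
  rw [e1] at h
  exact h

theorem maninPairing_smul_left (hneg : (-1 : SL(2, ℤ)) ∈ Γ) (c : R) {φ ψ : Additive Γ →+ R}
    (hφ : IsCuspidalOn Γ φ) (hψ : IsCuspidalOn Γ ψ) :
    maninPairing Γ (c • φ) ψ = c * maninPairing Γ φ ψ := by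
  obtain ⟨m, e, hm, -⟩ := exists_reps hneg hφ
  obtain ⟨n, f, hn, hf⟩ := exists_reps hneg hψ
  have hc : IsCuspidalOn Γ (c • φ) := (cuspSub R Γ R).smul_mem c hφ
  rw [maninPairing_eq_form hneg hc (isManinRep_smul c hm) hn hf,
    maninPairing_eq_form hneg hφ hm hn hf, Fermat.Agent.S41.H221.maninForm_mul_left]

theorem maninPairing_skew (hneg : (-1 : SL(2, ℤ)) ∈ Γ) {φ ψ : Additive Γ →+ R}
    (hφ : IsCuspidalOn Γ φ) (hψ : IsCuspidalOn Γ ψ) :
    maninPairing Γ ψ φ = - maninPairing Γ φ ψ := by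
  obtain ⟨m, e, hm, he⟩ := exists_reps hneg hφ
  obtain ⟨n, f, hn, hf⟩ := exists_reps hneg hψ
  rw [maninPairing_eq_form hneg hψ hn hm he, maninPairing_eq_form hneg hφ hm hn hf]
  exact Fermat.Agent.S41.H221.maninForm_skew Fermat.Agent.S41.H281.maninSkew hneg m e n f he hf

theorem maninPairing_add_right (hneg : (-1 : SL(2, ℤ)) ∈ Γ) {φ ψ ψ' : Additive Γ →+ R}
    (hφ : IsCuspidalOn Γ φ) (hψ : IsCuspidalOn Γ ψ) (hψ' : IsCuspidalOn Γ ψ') :
    maninPairing Γ φ (ψ + ψ') = maninPairing Γ φ ψ + maninPairing Γ φ ψ' := by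
  have h1 := maninPairing_skew hneg (isCuspidalOn_add hψ hψ') hφ
  have h2 := maninPairing_skew hneg hψ hφ
  have h3 := maninPairing_skew hneg hψ' hφ
  have h4 := maninPairing_add_left hneg hψ hψ' hφ
  rw [h1, h2, h3, h4]
  ring

theorem maninPairing_smul_right (hneg : (-1 : SL(2, ℤ)) ∈ Γ) (c : R) {φ ψ : Additive Γ →+ R}
    (hφ : IsCuspidalOn Γ φ) (hψ : IsCuspidalOn Γ ψ) :
    maninPairing Γ φ (c • ψ) = c * maninPairing Γ φ ψ := by
  have hc : IsCuspidalOn Γ (c • ψ) := (cuspSub R Γ R).smul_mem c hψ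
  have h1 := maninPairing_skew hneg hc hφ
  have h2 := maninPairing_skew hneg hψ hφ
  have h3 := maninPairing_smul_left hneg c hψ hφ
  rw [h1, h2, h3]
  ring

/-- The Manin form commutes with ring homomorphisms. -/
theorem maninForm_map {R' : Type} [CommRing R'] (π : R →+* R') (m e : SL(2, ℤ) ⧸ Γ → R) :
    maninForm Γ (fun x => π (m x)) (fun x => π (e x)) = π (maninForm Γ m e) := by
  have : Fintype (SL(2, ℤ) ⧸ Γ) := Fintype.ofFinite _
  rw [maninForm_eq_sum, maninForm_eq_sum, map_sum]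
  refine Finset.sum_congr rfl fun x _ => ?_
  rw [map_mul, map_sub]

/-- **Base change**: the pairing commutes with ring homomorphisms. -/
theorem maninPairing_map (hneg : (-1 : SL(2, ℤ)) ∈ Γ) {R' : Type} [CommRing R'] (π : R →+* R')
    {φ ψ : Additive Γ →+ R} (hφ : IsCuspidalOn Γ φ) (hψ : IsCuspidalOn Γ ψ) :
    maninPairing Γ (π.toAddMonoidHom.comp φ) (π.toAddMonoidHom.comp ψ) =
      π (maninPairing Γ φ ψ) := by
  obtain ⟨m, e, hm, -⟩ := exists_reps hneg hφ
  obtain ⟨n, f, hn, hf⟩ := exists_reps hneg hψ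
  have hm' := (Fermat.Agent.S41.H460.maninRepLinear Γ R R' π.toAddMonoidHom φ φ m m hm hm).2.2
  have hn' := (Fermat.Agent.S41.H460.maninRepLinear Γ R R' π.toAddMonoidHom ψ ψ n n hn hn).2.2
  have hf' := isParData_map (Γ := Γ) π.toAddMonoidHom hf
  rw [maninPairing_eq_form hneg (isCuspidalOn_comp π.toAddMonoidHom hφ) hm' hn' hf',
    maninPairing_eq_form hneg hφ hm hn hf]
  exact maninForm_map π m f

end Pairing

/-! ## Lifting and saturation -/

section Lift

variable {Γ : Subgroup SL(2, ℤ)} [Γ.FiniteIndex]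

/-- **LIFT** for any `Γ`: cuspidal classes mod `p` lift to cuspidal classes over `ℤ`. -/
theorem exists_lift (hneg : (-1 : SL(2, ℤ)) ∈ Γ) (p : ℕ) {xbar : Additive Γ →+ ZMod p}
    (hxbar : IsCuspidalOn Γ xbar) :
    ∃ x : Additive Γ →+ ℤ, IsCuspidalOn Γ x ∧ (Int.castAddHom (ZMod p)).comp x = xbar := by
  obtain ⟨mbar, ebar, hmbar, hebar⟩ := exists_reps hneg hxbar
  obtain ⟨m, e, hme, hm, -⟩ := Fermat.Agent.S41.H281.parDataLift Γ p mbar ebar hebar
  obtain ⟨x, hx⟩ := Fermat.Agent.S41.H585.maninRepRealize Γ hneg ℤ m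
  refine ⟨x, isCuspidalOn_of_reps hneg hx hme, ?_⟩
  have hred : IsManinRep Γ ((Int.castAddHom (ZMod p)).comp x)
      (fun y => (Int.castAddHom (ZMod p)) (m y)) :=
    (Fermat.Agent.S41.H460.maninRepLinear Γ ℤ (ZMod p) (Int.castAddHom (ZMod p)) x x m m hx hx).2.2
  have hmb : (fun y => (Int.castAddHom (ZMod p)) (m y)) = mbar := by
    funext y
    exact hm y
  rw [hmb] at hred
  have hdiff := (Fermat.Agent.S41.H460.maninRepLinear Γ (ZMod p) (ZMod p) (AddMonoidHom.id _)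
    ((Int.castAddHom (ZMod p)).comp x) xbar mbar mbar hred hmbar).2.1
  rw [sub_self] at hdiff
  have hzero : IsInvariantSum Γ (0 : SL(2, ℤ) ⧸ Γ → ZMod p) :=
    ⟨0, 0, fun _ => rfl, fun _ => rfl, by simp⟩
  have := Fermat.Agent.S41.H460.maninRepInvariant Γ hneg (ZMod p) _ 0 hdiff hzero
  exact sub_eq_zero.mp this

omit [Γ.FiniteIndex] in
/-- **Saturation**: a cuspidal class over `ℤ` which vanishes mod `p` is `p` times a cuspidal
class. -/
theorem exists_eq_smul_of_cast_eq_zero {p : ℕ} (hp : p ≠ 0) {x : Additive Γ →+ ℤ}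
    (hx : IsCuspidalOn Γ x) (h0 : (Int.castAddHom (ZMod p)).comp x = 0) :
    ∃ x' : Additive Γ →+ ℤ, IsCuspidalOn Γ x' ∧ x = (p : ℤ) • x' := by
  have hp' : (p : ℤ) ≠ 0 := by exact_mod_cast hp
  have hdvd : ∀ g : Additive Γ, (p : ℤ) ∣ x g := by
    intro g
    have := DFunLike.congr_fun h0 g
    exact (ZMod.intCast_zmod_eq_zero_iff_dvd _ _).mp this
  let x' : Additive Γ →+ ℤ :=
    { toFun := fun g => x g / p
      map_zero' := by rw [map_zero]; exact Int.zero_ediv _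
      map_add' := fun g g' => by
        rw [map_add]
        exact Int.add_ediv_of_dvd_left (hdvd g) }
  have hx' : ∀ g, x g = (p : ℤ) * x' g := fun g => (Int.mul_ediv_cancel' (hdvd g)).symm
  refine ⟨x', ⟨fun γ hγ => ?_, fun γ hγ => ?_⟩, ?_⟩
  · have := hx.1 γ hγ
    rw [hx'] at this
    exact (mul_eq_zero.mp this).resolve_left hp'
  · have := hx.2 γ hγ
    rw [hx'] at this
    exact (mul_eq_zero.mp this).resolve_left hp'
  · refine AddMonoidHom.ext fun g => ?_
    show x g = (p : ℤ) • x' g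
    rw [smul_eq_mul]
    exact hx' g

end Lift

/-! ## The integral pairing is perfect -/

section Perfect

variable (Γ : Subgroup SL(2, ℤ)) [Γ.FiniteIndex]

/-- `C_Γ(ℤ)` is a finite free `ℤ`-module. -/
theorem cuspSub_finite_free : Module.Finite ℤ (cuspSub ℤ Γ ℤ) ∧ Module.Free ℤ (cuspSub ℤ Γ ℤ) := by
  have : Group.FG SL(2, ℤ) :=
    Group.fg_iff.mpr ⟨{S, T}, _root_.SpecialLinearGroup.SL2Z_generators, Set.toFinite _⟩
  have : Group.FG Γ := Subgroup.fg_of_index_ne_zero Γ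
  exact Fermat.Agent.S41.H585.finite_free_of_fg Γ (cuspSub ℤ Γ ℤ)

instance cuspSub_finite : Module.Finite ℤ (cuspSub ℤ Γ ℤ) := (cuspSub_finite_free Γ).1

instance cuspSub_free : Module.Free ℤ (cuspSub ℤ Γ ℤ) := (cuspSub_finite_free Γ).2

variable {Γ}

/-- **The integral Manin pairing** on the cuspidal classes. -/
noncomputable def intPairing (hneg : (-1 : SL(2, ℤ)) ∈ Γ) :
    cuspSub ℤ Γ ℤ →ₗ[ℤ] cuspSub ℤ Γ ℤ →ₗ[ℤ] ℤ :=
  LinearMap.mk₂ ℤ (fun x y => maninPairing Γ (x : Additive Γ →+ ℤ) (y : Additive Γ →+ ℤ))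
    (fun x x' y => maninPairing_add_left hneg x.2 x'.2 y.2)
    (fun c x y => maninPairing_smul_left hneg c x.2 y.2)
    (fun x y y' => maninPairing_add_right hneg x.2 y.2 y'.2)
    (fun c x y => maninPairing_smul_right hneg c x.2 y.2)

@[simp] theorem intPairing_apply (hneg : (-1 : SL(2, ℤ)) ∈ Γ) (x y : cuspSub ℤ Γ ℤ) :
    intPairing hneg x y = maninPairing Γ (x : Additive Γ →+ ℤ) (y : Additive Γ →+ ℤ) := rfl

theorem intPairing_skew (hneg : (-1 : SL(2, ℤ)) ∈ Γ) (x y : cuspSub ℤ Γ ℤ) :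
    intPairing hneg y x = - intPairing hneg x y :=
  maninPairing_skew hneg x.2 y.2

/-- The radical of the integral pairing modulo `p` is `p · C_Γ(ℤ)`. -/
theorem radical_mod_prime (hneg : (-1 : SL(2, ℤ)) ∈ Γ) (p : ℕ) (hp : p.Prime)
    (x : cuspSub ℤ Γ ℤ) (h : ∀ y : cuspSub ℤ Γ ℤ, (p : ℤ) ∣ intPairing hneg y x) :
    ∃ x' : cuspSub ℤ Γ ℤ, x = (p : ℤ) • x' := by
  have : Fact p.Prime := ⟨hp⟩
  set π : ℤ →+* ZMod p := Int.castRingHom (ZMod p) with hπ
  have hxbar : IsCuspidalOn Γ (π.toAddMonoidHom.comp (x : Additive Γ →+ ℤ)) :=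
    isCuspidalOn_comp _ x.2
  -- the reduction of `x` is in the radical of the pairing mod `p`
  have hrad : ∀ ybar : Additive Γ →+ ZMod p, IsCuspidalOn Γ ybar →
      maninPairing Γ (π.toAddMonoidHom.comp (x : Additive Γ →+ ℤ)) ybar = 0 := by
    intro ybar hybar
    obtain ⟨y, hy, rfl⟩ := exists_lift hneg p hybar
    have h1 := maninPairing_map hneg π hy x.2
    have h2 := maninPairing_skew hneg (isCuspidalOn_comp π.toAddMonoidHom hy) hxbar
    have h3 : π (maninPairing Γ y (x : Additive Γ →+ ℤ)) = 0 :=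
      (ZMod.intCast_zmod_eq_zero_iff_dvd _ _).mpr (h ⟨y, hy⟩)
    show maninPairing Γ (π.toAddMonoidHom.comp (x : Additive Γ →+ ℤ))
      (π.toAddMonoidHom.comp y) = 0
    rw [h2, h1, h3, neg_zero]
  have hzero := (pairingPD Γ hneg (ZMod p)).2.2.2 _ hxbar hrad
  obtain ⟨x', hx', hxx'⟩ := exists_eq_smul_of_cast_eq_zero hp.ne_zero x.2 hzero
  exact ⟨⟨x', hx'⟩, Subtype.ext hxx'⟩

/-- **Integral Poincaré duality**: the Manin pairing on `C_Γ(ℤ)` is perfect. -/
theorem intPairing_bijective (hneg : (-1 : SL(2, ℤ)) ∈ Γ) :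
    Function.Bijective (intPairing hneg) :=
  bijective_of_radical_mod_primes (intPairing hneg) (radical_mod_prime hneg)

theorem intPairing_flip_bijective (hneg : (-1 : SL(2, ℤ)) ∈ Γ) :
    Function.Bijective (intPairing hneg).flip := by
  have h : (intPairing hneg).flip = - intPairing hneg := by
    ext x y
    exact intPairing_skew hneg x y
  rw [h]
  exact (Equiv.neg _).bijective.comp (intPairing_bijective hneg)

end Perfect

end Fermat.Agent.S59.H585
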