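/-
S59 / non-minimal engine (helper585): the INTEGRAL Manin pairing on `Γ₀(n)` and the maps of row S41.

For the pairing `maninPairing (Gamma0 n)` on cuspidal classes with coefficients `ℤ`
(perfect by `IntPD.lean`):

* `pairing_adj_field`   : over a field, `B(r_i x, y) = B(x, t_i y)`  (explicit pairing; replay of
                          `S41.H221.pd_of_asm`);
* `pairing_adj_int`     : the same over `ℤ`;
* `pairing_hecke_int`   : `B(T_l x, y) = B(x, T_l y)` over `ℤ`;
* `gamma0Pairing n`     : the bilinear pairing on `Spec.cuspidalSubmodule ℤ n ℤ`, with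
  `gamma0Pairing_bijective`, `gamma0Pairing_skew`.
-/
import Fermat.Agent.S59.H585.IntPD
import Fermat.Agent.S41.H41.GlueCore

set_option autoImplicit false

namespace Fermat.Agent.S59.H585

open CongruenceSubgroup Matrix.SpecialLinearGroup ModularCurve.Period ModularGroup
open Fermat.Agent.S29.H642 Fermat.Agent.S41.Spec
open scoped MatrixGroups

/-! ## Unconditional assembly statements A3, A4, A5 -/

theorem pairingResCores : ManinPairingResCoresStatement.{0} :=
  Fermat.Agent.S41.H221.maninPairingResCores pairingEq Fermat.Agent.S41.H460.maninRepExists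
    Fermat.Agent.S41.H585.maninRepParabolic Fermat.Agent.S41.H232.maninRepRes
    Fermat.Agent.S41.H232.maninRepCores Fermat.Agent.S41.H232.maninFormAdjoint

theorem pairingBeta : ManinPairingBetaStatement.{0} :=
  Fermat.Agent.S41.H221.maninPairingBeta pairingEq Fermat.Agent.S41.H460.maninRepExists
    Fermat.Agent.S41.H585.maninRepParabolic Fermat.Agent.S41.H945.heisLift
    Fermat.Agent.S41.H874.cuspSumZero_h874 Fermat.Agent.S41.H769.tOrbitSystemExists
    Fermat.Agent.S41.H769.tOrbitCusp Fermat.Agent.S41.H769.cuspSumIndep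

theorem pairingConjDelta : ManinPairingConjDeltaStatement.{0} :=
  Fermat.Agent.S41.H221.maninPairingConjDelta pairingBeta Fermat.Agent.S41.H460.maninRepExists
    Fermat.Agent.S41.H585.maninRepParabolic Fermat.Agent.S41.H945.heisLift
    Fermat.Agent.S41.H769.tOrbitSystemExists Fermat.Agent.S41.H769.tOrbitCusp
    Fermat.Agent.S41.H769.cuspSystemConjDelta

/-! ## Adjunction over a field, for the explicit pairing -/

open Fermat.Agent.S41.H221 in
/-- `r_i` is left adjoint to `t_i` for the Manin pairing (fields). -/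
theorem pairing_adj_field (F : Type) [Field F] {N q : ℕ} (hN : N ≠ 0) (hq : q.Prime)
    (hqN : ¬ q ∣ N) (x : Additive (Gamma0 N) →+ F) (y : Additive (Gamma0 (N * q)) →+ F)
    (hx : IsCuspidal x) (hy : IsCuspidal y) :
    maninPairing (Gamma0 (N * q)) (r₁ N q x) y = maninPairing (Gamma0 N) x (t₁ N q y) ∧
    maninPairing (Gamma0 (N * q)) (r₂ N q x) y = maninPairing (Gamma0 N) x (t₂ N q y) := by
  have hA3 := pairingResCores
  have hA5 := pairingConjDelta
  have hTE := Fermat.Agent.S41.H232.transferAlongEquiv.{0}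
  have hq0 : q ≠ 0 := hq.ne_zero
  have hFI : (Gamma0 N).FiniteIndex := finiteIndex_gamma0 hN
  have hFI' : (Gamma0 (N * q)).FiniteIndex := finiteIndex_gamma0 (Nat.mul_ne_zero hN hq0)
  have hFI'' : (gamma0Delta N q).FiniteIndex := finiteIndex_gamma0Delta hN hq0
  constructor
  · exact hA3 (Gamma0 (N * q)) (Gamma0 N) (gamma0_mul_le N q) (neg_one_mem_gamma0 _) F x y hx hy
  · set e := conjDeltaEquiv N q hq0 with he
    have hr₂ : r₂ N q x = (x.comp (MonoidHom.toAdditive
        (Subgroup.inclusion (gamma0Delta_le N q)))).comp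
          (MonoidHom.toAdditive (conjDeltaR N q)) := by
      unfold r₂
      rw [← inclusion_comp_conjDeltaR]
      rfl
    have hy' : y = (y.comp (MonoidHom.toAdditive e.symm.toMonoidHom)).comp
        (MonoidHom.toAdditive (conjDeltaR N q)) := by
      ext γ
      show y (Additive.ofMul γ) = y (Additive.ofMul (e.symm (conjDeltaR N q γ)))
      rw [← conjDeltaEquiv_apply N q hq0, ← he, MulEquiv.symm_apply_apply]
    have ht₂ : t₂ N q y = transferAlong (Subgroup.inclusion (gamma0Delta_le N q))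
        (y.comp (MonoidHom.toAdditive e.symm.toMonoidHom)) := by
      unfold t₂
      rw [← hTE (Gamma0 (N * q)) (gamma0Delta N q) (Gamma0 N) e
        (Subgroup.inclusion (gamma0Delta_le N q)) F y]
      rfl
    rw [hr₂, ht₂]
    conv_lhs => rw [hy']
    rw [hA5 N q hN hq hqN F _ _ (isCuspidalOn_res (gamma0Delta_le N q) x hx)
      (isCuspidalOn_comp_symm hq0 y hy)]
    exact hA3 (gamma0Delta N q) (Gamma0 N) (gamma0Delta_le N q) (neg_one_mem_gamma0Delta N q) F
      x _ hx (isCuspidalOn_comp_symm hq0 y hy)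

/-! ## Over `ℤ` -/

section Int

variable {N q : ℕ}

theorem finiteIndex_Gamma0' {n : ℕ} (hn : n ≠ 0) : (Gamma0 n).FiniteIndex :=
  Fermat.Agent.S41.H221.finiteIndex_gamma0 hn

theorem neg_one_mem_Gamma0' (n : ℕ) : (-1 : SL(2, ℤ)) ∈ Gamma0 n :=
  Fermat.Agent.S41.H221.neg_one_mem_gamma0 n

/-- The cast `ℤ → ℚ` of the pairing. -/
theorem cast_pairing {n : ℕ} (hn : n ≠ 0) {x y : Additive (Gamma0 n) →+ ℤ} (hx : IsCuspidal x)
    (hy : IsCuspidal y) :
    ((maninPairing (Gamma0 n) x y : ℤ) : ℚ) =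
      maninPairing (Gamma0 n) ((Int.castAddHom ℚ).comp x) ((Int.castAddHom ℚ).comp y) := by
  have := finiteIndex_Gamma0' hn
  exact (maninPairing_map (neg_one_mem_Gamma0' n) (Int.castRingHom ℚ) hx hy).symm

/-- **Adjunction over `ℤ`**: `B(r_i x, y) = B(x, t_i y)`. -/
theorem pairing_adj_int (hN : N ≠ 0) (hq : q.Prime) (hqN : ¬ q ∣ N)
    (x : Additive (Gamma0 N) →+ ℤ) (y : Additive (Gamma0 (N * q)) →+ ℤ)
    (hx : IsCuspidal x) (hy : IsCuspidal y) :
    maninPairing (Gamma0 (N * q)) (r₁ N q x) y = maninPairing (Gamma0 N) x (t₁ N q y) ∧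
    maninPairing (Gamma0 (N * q)) (r₂ N q x) y = maninPairing (Gamma0 N) x (t₂ N q y) := by
  have hNq : N * q ≠ 0 := Nat.mul_ne_zero hN hq.ne_zero
  obtain ⟨hFun, hRC, hTC, -⟩ := Fermat.Agent.S41.H281.hkStatement.{0}
  obtain ⟨hr1, hr2⟩ := hRC N q ℤ x hx
  obtain ⟨ht1, ht2⟩ := hTC N q ℤ y hy
  set ι : ℤ →+ ℚ := Int.castAddHom ℚ with hι
  have hxQ : IsCuspidal (ι.comp x) := Fermat.Agent.S41.H41.isCuspidal_comp ι hx
  have hyQ : IsCuspidal (ι.comp y) := Fermat.Agent.S41.H41.isCuspidal_comp ι hy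
  obtain ⟨a1, a2⟩ := pairing_adj_field ℚ hN hq hqN (ι.comp x) (ι.comp y) hxQ hyQ
  constructor
  · apply Int.cast_injective (α := ℚ)
    rw [cast_pairing hNq hr1 hy, cast_pairing hN hx ht1,
      ← Fermat.Agent.S41.H41.t₁_comp hFun, ← Fermat.Agent.S41.H41.r₁_comp]
    exact a1
  · apply Int.cast_injective (α := ℚ)
    rw [cast_pairing hNq hr2 hy, cast_pairing hN hx ht2,
      ← Fermat.Agent.S41.H41.t₂_comp hFun, ← Fermat.Agent.S41.H41.r₂_comp]
    exact a2

/-- **Hecke operators are self-adjoint over `ℤ`**. -/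
theorem pairing_hecke_int {n l : ℕ} [Fact l.Prime] (hl : ¬ l ∣ n) (hn : n ≠ 0)
    (x y : Additive (Gamma0 n) →+ ℤ) (hx : IsCuspidal x) (hy : IsCuspidal y) :
    maninPairing (Gamma0 n) (heckeTransfer hl x) y =
      maninPairing (Gamma0 n) x (heckeTransfer hl y) := by
  have hlp : l.Prime := Fact.out
  have hnl : n * l ≠ 0 := Nat.mul_ne_zero hn hlp.ne_zero
  have hFI := finiteIndex_Gamma0' hn
  have hFI' := finiteIndex_Gamma0' hnl
  obtain ⟨-, hRC, -, hHC, -, -, -, hTRH, -⟩ := Fermat.Agent.S41.H281.hkStatement.{0}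
  have hTx : IsCuspidal (heckeTransfer hl x) := hHC n l hl ℤ x hx
  obtain ⟨h1x, h2x⟩ := hRC n l ℤ x hx
  obtain ⟨h1y, h2y⟩ := hRC n l ℤ y hy
  obtain ⟨e1x, -⟩ := hTRH n l hl hn ℤ x
  obtain ⟨-, e2y⟩ := hTRH n l hl hn ℤ y
  have a1 := (pairing_adj_int hn hlp hl y (r₂ n l x) hy h2x).1
  have a2 := (pairing_adj_int hn hlp hl x (r₁ n l y) hx h1y).2
  calc maninPairing (Gamma0 n) (heckeTransfer hl x) y
      = - maninPairing (Gamma0 n) y (heckeTransfer hl x) :=
        maninPairing_skew (neg_one_mem_Gamma0' n) hy hTx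
    _ = - maninPairing (Gamma0 n) y (t₁ n l (r₂ n l x)) := by rw [e1x]
    _ = - maninPairing (Gamma0 (n * l)) (r₁ n l y) (r₂ n l x) := by rw [a1]
    _ = maninPairing (Gamma0 (n * l)) (r₂ n l x) (r₁ n l y) := by
        rw [maninPairing_skew (neg_one_mem_Gamma0' (n * l)) h2x h1y, neg_neg]
    _ = maninPairing (Gamma0 n) x (t₂ n l (r₁ n l y)) := a2
    _ = maninPairing (Gamma0 n) x (heckeTransfer hl y) := by rw [e2y]

/-- The integral pairing on `Spec.cuspidalSubmodule ℤ n ℤ` (`= cuspSub ℤ (Gamma0 n) ℤ`). -/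
noncomputable def gamma0Pairing {n : ℕ} (hn : n ≠ 0) :
    cuspidalSubmodule ℤ n ℤ →ₗ[ℤ] cuspidalSubmodule ℤ n ℤ →ₗ[ℤ] ℤ :=
  haveI := finiteIndex_Gamma0' hn
  intPairing (Γ := Gamma0 n) (neg_one_mem_Gamma0' n)

@[simp] theorem gamma0Pairing_apply {n : ℕ} (hn : n ≠ 0) (x y : cuspidalSubmodule ℤ n ℤ) :
    gamma0Pairing hn x y =
      maninPairing (Gamma0 n) (x : Additive (Gamma0 n) →+ ℤ) (y : Additive (Gamma0 n) →+ ℤ) :=
  rfl

theorem gamma0Pairing_skew {n : ℕ} (hn : n ≠ 0) (x y : cuspidalSubmodule ℤ n ℤ) :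
    gamma0Pairing hn y x = - gamma0Pairing hn x y :=
  haveI := finiteIndex_Gamma0' hn
  intPairing_skew (Γ := Gamma0 n) (neg_one_mem_Gamma0' n) x y

/-- **Integral Poincaré duality on `Γ₀(n)`**. -/
theorem gamma0Pairing_bijective {n : ℕ} (hn : n ≠ 0) :
    Function.Bijective (gamma0Pairing hn) :=
  haveI := finiteIndex_Gamma0' hn
  intPairing_bijective (Γ := Gamma0 n) (neg_one_mem_Gamma0' n)

theorem gamma0Pairing_flip_bijective {n : ℕ} (hn : n ≠ 0) :
    Function.Bijective (gamma0Pairing hn).flip :=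
  haveI := finiteIndex_Gamma0' hn
  intPairing_flip_bijective (Γ := Gamma0 n) (neg_one_mem_Gamma0' n)

end Int

end Fermat.Agent.S59.H585
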