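/-
S59 / S15 — the Manin pairing modulo `m` (helper585).

From integral Poincaré duality (`IntPD.lean`) and LIFT:

* `pairing_mod_left_kernel`  : for every `m`, the Manin pairing on the cuspidal classes
  `Γ → ZMod m` has trivial left kernel (any `Γ` of finite index with `-1 ∈ Γ`);
* `pairing_mod_right_kernel` : the same on the right;
* `pairing_adj_mod`, `pairing_hecke_mod` : adjunction `r_i ⊣ t_i` and self-adjointness of `T_l`
  for coefficients `ZMod m` on `Γ₀(n)`.
(Bi-additivity, skew-symmetry and base change over any commutative ring are in `IntPD.lean`: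
`maninPairing_add_left`, `maninPairing_add_right`, `maninPairing_skew`, `maninPairing_map`.)
-/
import Fermat.Agent.S59.H585.IntPDHecke

set_option autoImplicit false

namespace Fermat.Agent.S59.H585

open CongruenceSubgroup Matrix.SpecialLinearGroup ModularCurve.Period ModularGroup
open Fermat.Agent.S29.H642 Fermat.Agent.S41.Spec
open scoped MatrixGroups

section General

variable {Γ : Subgroup SL(2, ℤ)} [Γ.FiniteIndex]

/-- If `m ∣ B(x, y)` for all `y`, then `x ∈ m · C_Γ(ℤ)`. -/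
theorem exists_eq_smul_of_dvd_pairing (hneg : (-1 : SL(2, ℤ)) ∈ Γ) (m : ℕ)
    (x : cuspSub ℤ Γ ℤ) (h : ∀ y : cuspSub ℤ Γ ℤ, (m : ℤ) ∣ intPairing hneg x y) :
    ∃ x' : cuspSub ℤ Γ ℤ, x = (m : ℤ) • x' := by
  rcases Nat.eq_zero_or_pos m with rfl | hm
  · refine ⟨0, ?_⟩
    rw [smul_zero]
    apply (intPairing_bijective hneg).1
    rw [map_zero]
    ext y
    have := h y
    rw [Nat.cast_zero, zero_dvd_iff] at this
    exact this
  · have hm' : (m : ℤ) ≠ 0 := by exact_mod_cast hm.ne'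
    -- the functional `B(x, ·) / m`
    let f : cuspSub ℤ Γ ℤ →ₗ[ℤ] ℤ :=
      { toFun := fun y => intPairing hneg x y / m
        map_add' := fun y y' => by
          rw [map_add]
          exact Int.add_ediv_of_dvd_left (h y)
        map_smul' := fun c y => by
          rw [map_smul, smul_eq_mul, RingHom.id_apply, smul_eq_mul]
          exact Int.mul_ediv_assoc c (h y) }
    obtain ⟨x', hx'⟩ := (intPairing_bijective hneg).2 f
    refine ⟨x', ?_⟩
    apply (intPairing_bijective hneg).1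
    rw [map_smul, hx']
    ext y
    show intPairing hneg x y = (m : ℤ) * (intPairing hneg x y / m)
    exact (Int.mul_ediv_cancel' (h y)).symm

/-- **The pairing modulo `m` has trivial left kernel.** -/
theorem pairing_mod_left_kernel (hneg : (-1 : SL(2, ℤ)) ∈ Γ) (m : ℕ)
    {xbar : Additive Γ →+ ZMod m} (hx : IsCuspidalOn Γ xbar)
    (h : ∀ ybar : Additive Γ →+ ZMod m, IsCuspidalOn Γ ybar → maninPairing Γ xbar ybar = 0) :
    xbar = 0 := by
  obtain ⟨x, hxc, rfl⟩ := exists_lift hneg m hx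
  have hdvd : ∀ y : cuspSub ℤ Γ ℤ, (m : ℤ) ∣ intPairing hneg ⟨x, hxc⟩ y := by
    intro y
    have h1 := maninPairing_map hneg (Int.castRingHom (ZMod m)) hxc y.2
    have h2 := h _ (isCuspidalOn_comp (Int.castAddHom (ZMod m)) y.2)
    rw [← ZMod.intCast_zmod_eq_zero_iff_dvd]
    exact h1.symm.trans h2
  obtain ⟨x', hx'⟩ := exists_eq_smul_of_dvd_pairing hneg m ⟨x, hxc⟩ hdvd
  have hx'' : x = (m : ℤ) • (x' : Additive Γ →+ ℤ) := congrArg Subtype.val hx'
  refine AddMonoidHom.ext fun g => ?_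
  show ((x g : ℤ) : ZMod m) = 0
  rw [hx'']
  show (((m : ℤ) • (x' : Additive Γ →+ ℤ) g : ℤ) : ZMod m) = 0
  rw [smul_eq_mul, Int.cast_mul, Int.cast_natCast, ZMod.natCast_self, zero_mul]

/-- **The pairing modulo `m` has trivial right kernel.** -/
theorem pairing_mod_right_kernel (hneg : (-1 : SL(2, ℤ)) ∈ Γ) (m : ℕ)
    {ybar : Additive Γ →+ ZMod m} (hy : IsCuspidalOn Γ ybar)
    (h : ∀ xbar : Additive Γ →+ ZMod m, IsCuspidalOn Γ xbar → maninPairing Γ xbar ybar = 0) :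
    ybar = 0 := by
  refine pairing_mod_left_kernel hneg m hy fun xbar hxbar => ?_
  rw [maninPairing_skew hneg hxbar hy, h xbar hxbar, neg_zero]

end General

section Gamma0

variable {N q : ℕ}

/-- Reduction mod `m` of the integral pairing on `Γ₀(n)`. -/
theorem cast_pairing_mod {n : ℕ} (hn : n ≠ 0) (m : ℕ) {x y : Additive (Gamma0 n) →+ ℤ}
    (hx : IsCuspidal x) (hy : IsCuspidal y) :
    ((maninPairing (Gamma0 n) x y : ℤ) : ZMod m) =
      maninPairing (Gamma0 n) ((Int.castAddHom (ZMod m)).comp x)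
        ((Int.castAddHom (ZMod m)).comp y) := by
  have := finiteIndex_Gamma0' hn
  exact (maninPairing_map (neg_one_mem_Gamma0' n) (Int.castRingHom (ZMod m)) hx hy).symm

/-- **Adjunction modulo `m`**: `B(r_i x, y) = B(x, t_i y)`. -/
theorem pairing_adj_mod (m : ℕ) (hN : N ≠ 0) (hq : q.Prime) (hqN : ¬ q ∣ N)
    (x : Additive (Gamma0 N) →+ ZMod m) (y : Additive (Gamma0 (N * q)) →+ ZMod m)
    (hx : IsCuspidal x) (hy : IsCuspidal y) :
    maninPairing (Gamma0 (N * q)) (r₁ N q x) y = maninPairing (Gamma0 N) x (t₁ N q y) ∧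
    maninPairing (Gamma0 (N * q)) (r₂ N q x) y = maninPairing (Gamma0 N) x (t₂ N q y) := by
  have hNq : N * q ≠ 0 := Nat.mul_ne_zero hN hq.ne_zero
  have hFI := finiteIndex_Gamma0' hN
  have hFI' := finiteIndex_Gamma0' hNq
  obtain ⟨hFun, hRC, hTC, -⟩ := Fermat.Agent.S41.H281.hkStatement.{0}
  obtain ⟨x₀, hx₀, rfl⟩ := exists_lift (neg_one_mem_Gamma0' N) m hx
  obtain ⟨y₀, hy₀, rfl⟩ := exists_lift (neg_one_mem_Gamma0' (N * q)) m hy
  obtain ⟨hr1, hr2⟩ := hRC N q ℤ x₀ hx₀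
  obtain ⟨ht1, ht2⟩ := hTC N q ℤ y₀ hy₀
  obtain ⟨a1, a2⟩ := pairing_adj_int hN hq hqN x₀ y₀ hx₀ hy₀
  constructor
  · rw [Fermat.Agent.S41.H41.r₁_comp, Fermat.Agent.S41.H41.t₁_comp hFun,
      ← cast_pairing_mod hNq m hr1 hy₀, ← cast_pairing_mod hN m hx₀ ht1, a1]
  · rw [Fermat.Agent.S41.H41.r₂_comp, Fermat.Agent.S41.H41.t₂_comp hFun,
      ← cast_pairing_mod hNq m hr2 hy₀, ← cast_pairing_mod hN m hx₀ ht2, a2]

/-- **Hecke operators are self-adjoint modulo `m`**. -/
theorem pairing_hecke_mod (m : ℕ) {n l : ℕ} [Fact l.Prime] (hl : ¬ l ∣ n) (hn : n ≠ 0)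
    (x y : Additive (Gamma0 n) →+ ZMod m) (hx : IsCuspidal x) (hy : IsCuspidal y) :
    maninPairing (Gamma0 n) (heckeTransfer hl x) y =
      maninPairing (Gamma0 n) x (heckeTransfer hl y) := by
  have hFI := finiteIndex_Gamma0' hn
  obtain ⟨-, -, -, hHC, -⟩ := Fermat.Agent.S41.H281.hkStatement.{0}
  obtain ⟨x₀, hx₀, rfl⟩ := exists_lift (neg_one_mem_Gamma0' n) m hx
  obtain ⟨y₀, hy₀, rfl⟩ := exists_lift (neg_one_mem_Gamma0' n) m hy
  have hTx : IsCuspidal (heckeTransfer hl x₀) := hHC n l hl ℤ x₀ hx₀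
  have hTy : IsCuspidal (heckeTransfer hl y₀) := hHC n l hl ℤ y₀ hy₀
  rw [heckeTransfer_comp hl, heckeTransfer_comp hl, ← cast_pairing_mod hn m hTx hy₀,
    ← cast_pairing_mod hn m hx₀ hTy, pairing_hecke_int hl hn x₀ y₀ hx₀ hy₀]

end Gamma0

end Fermat.Agent.S59.H585
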