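import Fermat.Agent.S59.H585.EtaInd
import Fermat.Agent.S59.NMP.SpecP

/-!
# S59, cell NMP, leaf BB (helper585): the Betti bound of the flat level

`bettiTarget_of : NM.BoundStepStatement → NMP.BettiTargetStatement` — the induction of the cell NM
(`H585.bettiBound_all`), in the frozen shape of `NMP/SpecP.lean`.
-/

set_option autoImplicit false

open IsLocalRing

namespace Fermat.Agent.S59.H585

open Fermat.Agent.S59.NM Fermat.Agent.S59.Arch

/-- **BB** from the step of the Betti bound. -/
theorem bettiTarget_of (hStep : BoundStepStatement) :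
    Fermat.Agent.S59.NMP.BettiTargetStatement := by
  intro p _ 𝒪 _ _ _ _ _ _ ρbar Smin h _ hN χ hχ Sig hSig hSigP _ hne
  refine bettiBound_all hStep h .flat χ hχ ?_ Sig hSig hSigP
  intro h0
  apply hne
  unfold targetIdeal
  rw [h0, Ideal.bot_mul]

/-- **BB** from IHARA2 and OLD (`H202.hk2` plugged in by `boundStep_of`). -/
theorem bettiTarget_of_leaves (hHK2 : HK2Statement) (hI : Ihara2Statement)
    (hOld : OldStatement) : Fermat.Agent.S59.NMP.BettiTargetStatement :=
  bettiTarget_of (boundStep_of hHK2 hI hOld)

end Fermat.Agent.S59.H585
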