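import Fermat.Agent.S59.NM.Spec
import Fermat.Agent.S59.H585.IntPDHecke

/-!
# S59, cell NM, leaf ADJ2 (helper585): adjunction over any domain, at both stages

* `pairingConjDelta'`   : `c_δ` is an isometry for ALL `N ≠ 0`, `q ≠ 0` (fields);
* `pairing_adj_field'`  : `B(r_i x, y) = B(x, t_i y)` over a field, all `N ≠ 0`, `q ≠ 0`;
* `pairing_hecke_field` : `T_l` is self-adjoint over a field;
* `adj2 : NM.Adj2Statement` (domains, via the fraction field).
-/

set_option autoImplicit false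

namespace Fermat.Agent.S59.H585

open CongruenceSubgroup Matrix.SpecialLinearGroup ModularCurve.Period ModularGroup
open Fermat.Agent.S29.H642 Fermat.Agent.S41.Spec
open scoped MatrixGroups

open Fermat.Agent.S41.H221 in
/-- (A5) for all `N ≠ 0`, `q ≠ 0`: `c_δ` is an isometry. -/
theorem pairingConjDelta' (N q : ℕ) (hN : N ≠ 0) (hq0 : q ≠ 0) (F : Type) [Field F]
    (φ ψ : Additive (gamma0Delta N q) →+ F)
    (hφ : IsCuspidalOn (gamma0Delta N q) φ) (hψ : IsCuspidalOn (gamma0Delta N q) ψ) :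
    maninPairing (Gamma0 (N * q)) (φ.comp (MonoidHom.toAdditive (conjDeltaR N q)))
      (ψ.comp (MonoidHom.toAdditive (conjDeltaR N q))) = maninPairing (gamma0Delta N q) φ ψ := by
  have hFI' : (gamma0Delta N q).FiniteIndex := finiteIndex_gamma0Delta hN hq0
  have hFI : (Gamma0 (N * q)).FiniteIndex := finiteIndex_gamma0 (Nat.mul_ne_zero hN hq0)
  have hneg' := neg_one_mem_gamma0Delta N q
  have hneg := neg_one_mem_gamma0 (N * q)
  obtain ⟨m, hm⟩ := Fermat.Agent.S41.H460.maninRepExists.{0} _ hneg' F φ hφ.2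
  obtain ⟨e, he⟩ := (Fermat.Agent.S41.H585.maninRepParabolic.{0} _ hneg' F φ m hm).1 hφ.1
  obtain ⟨m', hm'⟩ := Fermat.Agent.S41.H460.maninRepExists.{0} _ hneg' F ψ hψ.2
  obtain ⟨e', he'⟩ := (Fermat.Agent.S41.H585.maninRepParabolic.{0} _ hneg' F ψ m' hm').1 hψ.1
  obtain ⟨ζ, hζ, -⟩ := Fermat.Agent.S41.H945.heisLift.{0} _ hneg' F φ ψ m m' e e' hm hm' he he'
  obtain ⟨ι, inst, γ, h, w, hsys⟩ := Fermat.Agent.S41.H769.tOrbitSystemExists (Gamma0 (N * q))
  have hcusp := Fermat.Agent.S41.H769.tOrbitCusp _ hneg ι γ h w hsys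
  have hcusp' := Fermat.Agent.S41.H769.cuspSystemConjDelta N q hN hq0 ι γ hcusp
  have h1 := pairingBeta _ hneg F _ _ _ (isCuspidalOn_comp_conjDeltaR φ hφ)
    (isCuspidalOn_comp_conjDeltaR ψ hψ) (isHeisLift_comp_conjDeltaR φ ψ ζ hζ) ι γ hcusp
  have h2 := pairingBeta _ hneg' F φ ψ ζ hφ hψ hζ ι (fun i => conjDeltaR N q (γ i)) hcusp'
  exact neg_injective (h1.symm.trans h2)

open Fermat.Agent.S41.H221 in
/-- `r_i` is left adjoint to `t_i` for the Manin pairing over a field (all `N ≠ 0`, `q ≠ 0`). -/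
theorem pairing_adj_field' (F : Type) [Field F] {N q : ℕ} (hN : N ≠ 0) (hq0 : q ≠ 0)
    (x : Additive (Gamma0 N) →+ F) (y : Additive (Gamma0 (N * q)) →+ F)
    (hx : IsCuspidal x) (hy : IsCuspidal y) :
    maninPairing (Gamma0 (N * q)) (r₁ N q x) y = maninPairing (Gamma0 N) x (t₁ N q y) ∧
    maninPairing (Gamma0 (N * q)) (r₂ N q x) y = maninPairing (Gamma0 N) x (t₂ N q y) := by
  have hA3 := pairingResCores
  have hTE := Fermat.Agent.S41.H232.transferAlongEquiv.{0}
  have hFI : (Gamma0 N).FiniteIndex := finiteIndex_gamma0 hN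
  have hFI' : (Gamma0 (N * q)).FiniteIndex := finiteIndex_gamma0 (Nat.mul_ne_zero hN hq0)
  have hFI'' : (gamma0Delta N q).FiniteIndex := finiteIndex_gamma0Delta hN hq0
  constructor
  · exact hA3 (Gamma0 (N * q)) (Gamma0 N) (gamma0_mul_le N q) (neg_one_mem_gamma0 _) F x y hx hy
  · set e := conjDeltaEquiv N q hq0 with he
    have hr₂ : r₂ N q x = (x.comp (MonoidHom.toAdditive
        (Subgroup.inclusion (gamma0Delta_le N q)))).comp
          (MonoidHom.toAdditive (conjDeltaR N q)) := by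
      unfold r₂
      rw [← inclusion_comp_conjDeltaR]
      rfl
    have hy' : y = (y.comp (MonoidHom.toAdditive e.symm.toMonoidHom)).comp
        (MonoidHom.toAdditive (conjDeltaR N q)) := by
      ext γ
      show y (Additive.ofMul γ) = y (Additive.ofMul (e.symm (conjDeltaR N q γ)))
      rw [← conjDeltaEquiv_apply N q hq0, ← he, MulEquiv.symm_apply_apply]
    have ht₂ : t₂ N q y = transferAlong (Subgroup.inclusion (gamma0Delta_le N q))
        (y.comp (MonoidHom.toAdditive e.symm.toMonoidHom)) := by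
      unfold t₂
      rw [← hTE (Gamma0 (N * q)) (gamma0Delta N q) (Gamma0 N) e
        (Subgroup.inclusion (gamma0Delta_le N q)) F y]
      rfl
    rw [hr₂, ht₂]
    conv_lhs => rw [hy']
    rw [pairingConjDelta' N q hN hq0 F _ _ (isCuspidalOn_res (gamma0Delta_le N q) x hx)
      (isCuspidalOn_comp_symm hq0 y hy)]
    exact hA3 (gamma0Delta N q) (Gamma0 N) (gamma0Delta_le N q) (neg_one_mem_gamma0Delta N q) F
      x _ hx (isCuspidalOn_comp_symm hq0 y hy)

/-- `T_l` is self-adjoint for the Manin pairing over a field. -/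
theorem pairing_hecke_field (F : Type) [Field F] {n l : ℕ} [Fact l.Prime] (hl : ¬ l ∣ n)
    (hn : n ≠ 0) (x y : Additive (Gamma0 n) →+ F) (hx : IsCuspidal x) (hy : IsCuspidal y) :
    maninPairing (Gamma0 n) (heckeTransfer hl x) y =
      maninPairing (Gamma0 n) x (heckeTransfer hl y) := by
  have hlp : l.Prime := Fact.out
  have hnl : n * l ≠ 0 := Nat.mul_ne_zero hn hlp.ne_zero
  have hFI := finiteIndex_Gamma0' hn
  have hFI' := finiteIndex_Gamma0' hnl
  obtain ⟨-, hRC, -, hHC, -, -, -, hTRH, -⟩ := Fermat.Agent.S41.H281.hkStatement.{0}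
  have hTx : IsCuspidal (heckeTransfer hl x) := hHC n l hl F x hx
  obtain ⟨h1x, h2x⟩ := hRC n l F x hx
  obtain ⟨h1y, h2y⟩ := hRC n l F y hy
  obtain ⟨e1x, -⟩ := hTRH n l hl hn F x
  obtain ⟨-, e2y⟩ := hTRH n l hl hn F y
  have a1 := (pairing_adj_field' F hn hlp.ne_zero y (r₂ n l x) hy h2x).1
  have a2 := (pairing_adj_field' F hn hlp.ne_zero x (r₁ n l y) hx h1y).2
  calc maninPairing (Gamma0 n) (heckeTransfer hl x) y
      = - maninPairing (Gamma0 n) y (heckeTransfer hl x) :=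
        maninPairing_skew (neg_one_mem_Gamma0' n) hy hTx
    _ = - maninPairing (Gamma0 n) y (t₁ n l (r₂ n l x)) := by rw [e1x]
    _ = - maninPairing (Gamma0 (n * l)) (r₁ n l y) (r₂ n l x) := by rw [a1]
    _ = maninPairing (Gamma0 (n * l)) (r₂ n l x) (r₁ n l y) := by
        rw [maninPairing_skew (neg_one_mem_Gamma0' (n * l)) h2x h1y, neg_neg]
    _ = maninPairing (Gamma0 n) x (t₂ n l (r₁ n l y)) := a2
    _ = maninPairing (Gamma0 n) x (heckeTransfer hl y) := by rw [e2y]

/-- **ADJ2.** -/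
theorem adj2 : Fermat.Agent.S59.NM.Adj2Statement := by
  intro R _ _ N q hN hq
  have hq0 : q ≠ 0 := hq.ne_zero
  have hNq : N * q ≠ 0 := Nat.mul_ne_zero hN hq0
  have hFI := finiteIndex_Gamma0' hN
  have hFI' := finiteIndex_Gamma0' hNq
  obtain ⟨hFun, hRC, hTC, hHC, -⟩ := Fermat.Agent.S41.H281.hkStatement.{0}
  set K := FractionRing R with hK
  set ι : R →+* K := algebraMap R K with hι
  have hinj : Function.Injective ι := IsFractionRing.injective R K
  refine ⟨fun x y hx hy => ?_, fun l _ hl x y hx hy => ?_⟩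
  · obtain ⟨hr1, hr2⟩ := hRC N q R x hx
    obtain ⟨ht1, ht2⟩ := hTC N q R y hy
    have hxK : IsCuspidal (ι.toAddMonoidHom.comp x) :=
      Fermat.Agent.S41.H41.isCuspidal_comp ι.toAddMonoidHom hx
    have hyK : IsCuspidal (ι.toAddMonoidHom.comp y) :=
      Fermat.Agent.S41.H41.isCuspidal_comp ι.toAddMonoidHom hy
    obtain ⟨a1, a2⟩ := pairing_adj_field' K hN hq0 _ _ hxK hyK
    constructor
    · apply hinj
      rw [← maninPairing_map (neg_one_mem_Gamma0' (N * q)) ι hr1 hy,
        ← maninPairing_map (neg_one_mem_Gamma0' N) ι hx ht1,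
        ← Fermat.Agent.S41.H41.t₁_comp hFun, ← Fermat.Agent.S41.H41.r₁_comp]
      exact a1
    · apply hinj
      rw [← maninPairing_map (neg_one_mem_Gamma0' (N * q)) ι hr2 hy,
        ← maninPairing_map (neg_one_mem_Gamma0' N) ι hx ht2,
        ← Fermat.Agent.S41.H41.t₂_comp hFun, ← Fermat.Agent.S41.H41.r₂_comp]
      exact a2
  · have hxK : IsCuspidal (ι.toAddMonoidHom.comp x) :=
      Fermat.Agent.S41.H41.isCuspidal_comp ι.toAddMonoidHom hx
    have hyK : IsCuspidal (ι.toAddMonoidHom.comp y) :=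
      Fermat.Agent.S41.H41.isCuspidal_comp ι.toAddMonoidHom hy
    have hTx : IsCuspidal (heckeTransfer hl x) := hHC N l hl R x hx
    have hTy : IsCuspidal (heckeTransfer hl y) := hHC N l hl R y hy
    apply hinj
    rw [← maninPairing_map (neg_one_mem_Gamma0' N) ι hTx hy,
      ← maninPairing_map (neg_one_mem_Gamma0' N) ι hx hTy,
      ← heckeTransfer_comp hl, ← heckeTransfer_comp hl]
    exact pairing_hecke_field K hl hN _ _ hxK hyK

end Fermat.Agent.S59.H585
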