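import Fermat.Agent.S59.NM.Spec
import Fermat.Agent.S59.H585.IntPDHecke

/-!
# S59, cell NM, leaf PERF (helper585): the Manin pairing over a DVR is perfect

* `exists_lincomb`  : over a domain `R` of characteristic `0`, every cuspidal class `Γ → R` is an
  `R`-linear combination of cuspidal classes `Γ → ℤ`;
* `maninPairing_sum_left` : additivity of the pairing in finite sums;
* `perf_charZero`   : `NM.PerfStatement` for DVRs of characteristic `0` (the case used by S59).
-/

set_option autoImplicit false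

open CongruenceSubgroup IsLocalRing
open scoped MatrixGroups

namespace Fermat.Agent.S59.H585

open Fermat.Agent.S41.Spec Fermat.Agent.S59.NM ModularCurve.Period

section LinComb

variable {Γ : Subgroup SL(2, ℤ)}

/-- Cuspidality only depends on the zero set. -/
theorem isCuspidalOn_of_zero_imp {A B : Type*} [AddCommGroup A] [AddCommGroup B]
    {y : Additive Γ →+ A} {z : Additive Γ →+ B} (hy : IsCuspidalOn Γ y)
    (h : ∀ g : Additive Γ, y g = 0 → z g = 0) : IsCuspidalOn Γ z :=
  ⟨fun γ hγ => h _ (hy.1 γ hγ), fun γ hγ => h _ (hy.2 γ hγ)⟩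

variable [Γ.FiniteIndex]

theorem fg_of_finiteIndex : Group.FG Γ := by
  have : Group.FG SL(2, ℤ) :=
    Group.fg_iff.mpr ⟨{ModularGroup.S, ModularGroup.T},
      _root_.SpecialLinearGroup.SL2Z_generators, Set.toFinite _⟩
  exact Subgroup.fg_of_index_ne_zero Γ

/-- **LIN-COMB** (characteristic `0`): a cuspidal class with values in a domain of
characteristic `0` is a linear combination of integral cuspidal classes. -/
theorem exists_lincomb {R : Type} [CommRing R] [IsDomain R] [CharZero R]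
    {y : Additive Γ →+ R} (hy : IsCuspidalOn Γ y) :
    ∃ (ι : Type) (_ : Fintype ι) (v : ι → R) (z : ι → Additive Γ →+ ℤ),
      (∀ k, IsCuspidalOn Γ (z k)) ∧ ∀ g : Additive Γ, y g = ∑ k, v k * ((z k g : ℤ) : R) := by
  classical
  haveI : Group.FG Γ := fg_of_finiteIndex
  set V : Submodule ℤ R := AddSubgroup.toIntSubmodule y.range with hV
  have hVfg : V.FG := by
    rw [Submodule.fg_iff_addSubgroup_fg]
    exact (AddGroup.fg_iff_addSubgroup_fg _).mp (AddGroup.fg_range y)
  haveI : Module.Finite ℤ V := Module.Finite.iff_fg.mpr hVfg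
  haveI : Module.Free ℤ V := Module.free_of_finite_type_torsion_free'
  set β := Module.Free.chooseBasis ℤ V with hβ
  haveI : Fintype (Module.Free.ChooseBasisIndex ℤ V) :=
    Module.Free.ChooseBasisIndex.fintype ℤ _
  let y' : Additive Γ →+ V :=
    { toFun := fun g => ⟨y g, ⟨g, rfl⟩⟩
      map_zero' := Subtype.ext (map_zero y)
      map_add' := fun a b => Subtype.ext (map_add y a b) }
  refine ⟨Module.Free.ChooseBasisIndex ℤ V, inferInstance,
    fun k => ((β k : V) : R),
    fun k => (β.coord k).toAddMonoidHom.comp y', ?_, ?_⟩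
  · intro k
    refine isCuspidalOn_of_zero_imp hy fun g hg => ?_
    show β.coord k (y' g) = 0
    have : y' g = 0 := Subtype.ext hg
    rw [this, map_zero]
  · intro g
    have h1 := β.sum_repr (y' g)
    have h2 := congrArg (Subtype.val : V → R) h1
    have h3 : ((y' g : V) : R) = y g := rfl
    rw [← h3, ← h2]
    rw [AddSubmonoidClass.coe_finset_sum]
    refine Finset.sum_congr rfl fun k _ => ?_
    show ((β.repr (y' g) k • β k : V) : R) = _
    rw [Submodule.coe_smul, zsmul_eq_mul, mul_comm]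
    rfl

end LinComb

section Sum

variable {Γ : Subgroup SL(2, ℤ)} [Γ.FiniteIndex] {R : Type} [CommRing R]

theorem maninPairing_zero_left (hneg : (-1 : SL(2, ℤ)) ∈ Γ) {ψ : Additive Γ →+ R}
    (hψ : IsCuspidalOn Γ ψ) : maninPairing Γ (0 : Additive Γ →+ R) ψ = 0 := by
  have h0 : IsCuspidalOn Γ (0 : Additive Γ →+ R) := (cuspSub R Γ R).zero_mem
  have h := maninPairing_add_left hneg h0 h0 hψ
  rw [add_zero] at h
  exact left_eq_add.mp h

omit [Γ.FiniteIndex] in
theorem isCuspidalOn_sum {ι : Type} (s : Finset ι) {φ : ι → Additive Γ →+ R}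
    (hφ : ∀ k, IsCuspidalOn Γ (φ k)) : IsCuspidalOn Γ (∑ k ∈ s, φ k) :=
  (cuspSub R Γ R).sum_mem fun k _ => hφ k

theorem maninPairing_sum_left (hneg : (-1 : SL(2, ℤ)) ∈ Γ) {ι : Type} (s : Finset ι)
    {φ : ι → Additive Γ →+ R} (hφ : ∀ k, IsCuspidalOn Γ (φ k)) {ψ : Additive Γ →+ R}
    (hψ : IsCuspidalOn Γ ψ) :
    maninPairing Γ (∑ k ∈ s, φ k) ψ = ∑ k ∈ s, maninPairing Γ (φ k) ψ := by
  classical
  induction s using Finset.induction_on with
  | empty => simpa using maninPairing_zero_left hneg hψ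
  | insert a s ha ih =>
    rw [Finset.sum_insert ha, Finset.sum_insert ha,
      maninPairing_add_left hneg (hφ a) (isCuspidalOn_sum s hφ) hψ, ih]

end Sum

section Perf

variable {Γ : Subgroup SL(2, ℤ)} [Γ.FiniteIndex]

/-- **PERF** for any `Γ` (characteristic `0`): a cuspidal class with a unit value pairs to `1`
with some cuspidal class. -/
theorem exists_pairing_eq_one (hneg : (-1 : SL(2, ℤ)) ∈ Γ) {R : Type} [CommRing R] [IsDomain R]
    [CharZero R] {x : Additive Γ →+ R} (hx : IsCuspidalOn Γ x) {g₀ : Additive Γ}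
    (hu : IsUnit (x g₀)) :
    ∃ m : Additive Γ →+ R, IsCuspidalOn Γ m ∧ maninPairing Γ x m = 1 := by
  classical
  obtain ⟨ι, _, v, z, hz, hxz⟩ := exists_lincomb hx
  -- the evaluation at `g₀` on the integral classes
  let ev : cuspSub ℤ Γ ℤ →ₗ[ℤ] ℤ :=
    { toFun := fun c => (c : Additive Γ →+ ℤ) g₀
      map_add' := fun _ _ => rfl
      map_smul' := fun _ _ => rfl }
  obtain ⟨w, hw⟩ := (intPairing_flip_bijective (Γ := Γ) hneg).2 ev
  have hw' : ∀ c : cuspSub ℤ Γ ℤ,
      maninPairing Γ (c : Additive Γ →+ ℤ) (w : Additive Γ →+ ℤ) = (c : Additive Γ →+ ℤ) g₀ := by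
    intro c
    have := LinearMap.congr_fun hw c
    exact this
  set ι' : ℤ →+* R := Int.castRingHom R with hι'
  set W : Additive Γ →+ R := ι'.toAddMonoidHom.comp (w : Additive Γ →+ ℤ) with hW
  have hWc : IsCuspidalOn Γ W := isCuspidalOn_comp _ w.2
  have hzc : ∀ k, IsCuspidalOn Γ (v k • ι'.toAddMonoidHom.comp (z k)) := fun k =>
    (cuspSub R Γ R).smul_mem (v k) (isCuspidalOn_comp _ (hz k))
  have hxsum : x = ∑ k, v k • ι'.toAddMonoidHom.comp (z k) := by
    refine AddMonoidHom.ext fun g => ?_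
    rw [hxz g, AddMonoidHom.finsetSum_apply]
    rfl
  have hB : maninPairing Γ x W = x g₀ := by
    conv_lhs => rw [hxsum]
    rw [maninPairing_sum_left hneg Finset.univ hzc hWc, hxz g₀]
    refine Finset.sum_congr rfl fun k _ => ?_
    rw [maninPairing_smul_left hneg (v k) (isCuspidalOn_comp _ (hz k)) hWc,
      maninPairing_map hneg ι' (hz k) w.2, hw' ⟨z k, hz k⟩]
    rfl
  obtain ⟨u, hu⟩ := hu
  refine ⟨(↑u⁻¹ : R) • W, (cuspSub R Γ R).smul_mem _ hWc, ?_⟩
  rw [maninPairing_smul_right hneg _ hx hWc, hB, ← hu, Units.inv_mul]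

/-- **PERF** (`NM.PerfStatement` for DVRs of characteristic `0`). -/
theorem perf_charZero (𝒪 : Type) [CommRing 𝒪] [IsDomain 𝒪] [CharZero 𝒪] (n : ℕ) (hn : n ≠ 0)
    (x : Additive (Gamma0 n) →+ 𝒪) (hx : IsCuspidal x) (hp : IsPrim x) :
    ∃ m : Additive (Gamma0 n) →+ 𝒪, IsCuspidal m ∧ maninPairing (Gamma0 n) x m = 1 := by
  haveI := finiteIndex_Gamma0' hn
  obtain ⟨γ, hγ⟩ := hp
  exact exists_pairing_eq_one (neg_one_mem_Gamma0' n) hx hγ

end Perf

end Fermat.Agent.S59.H585
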