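import Fermat.Agent.S59.H585.EtaAsm
import Fermat.Agent.S59.H585.BettiTarget
import Fermat.Agent.S59.H161.Ihara2.Main
import Fermat.Agent.S59.H950.NEPrimeK
import Fermat.Agent.S59.NM.H709.EtaOfBound

/-!
# S59, cell NM: the Hecke side NM-ETA from the single open leaf OLD (helper585)

On main: HK2 (`H202.hk2`), ADJ2 / PERF / BASE / STEP / ETA-IND (`H585`), IHARA2
(`H161.ihara2_of_ne` + `H950.nePrimeK`), ETAB (`NM.H709.etaOfBound`).  Hence

* `ihara2          : NM.Ihara2Statement`      (unconditional);
* `boundStep_of_old : NM.OldStatement → NM.BoundStepStatement`;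
* `etaAbs_of_old    : NM.OldStatement → NM.EtaAbsStatement`;
* `bettiTarget_of_old : NM.OldStatement → NMP.BettiTargetStatement`.
-/

set_option autoImplicit false

namespace Fermat.Agent.S59.H585

open Fermat.Agent.S59.NM

/-- **IHARA2**, unconditional. -/
theorem ihara2 : Ihara2Statement :=
  Fermat.Agent.S59.H161.ihara2_of_ne
    (fun p _ hp2 k _ _ _ ρbar habs hsplit S hpS a ha q hq hqp m hm S' =>
      Fermat.Agent.S59.H950.nePrimeK p hp2 k ρbar habs hsplit S hpS a ha q hq hqp m hm S')

/-- **STEP** from OLD. -/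
theorem boundStep_of_old (hOld : OldStatement) : BoundStepStatement :=
  boundStep_of_leaves ihara2 hOld

/-- **NM-ETA** from OLD. -/
theorem etaAbs_of_old (hOld : OldStatement) : EtaAbsStatement :=
  etaAbs_of_leaves ihara2 hOld Fermat.Agent.S59.NM.H709.etaOfBound

/-- **BB** (cell NMP) from OLD. -/
theorem bettiTarget_of_old (hOld : OldStatement) :
    Fermat.Agent.S59.NMP.BettiTargetStatement :=
  bettiTarget_of (boundStep_of_old hOld)

end Fermat.Agent.S59.H585
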