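import Fermat.Agent.S59.H585.StepCore
import Fermat.Agent.S59.Arch.WilesLevel

/-!
# S59, cell NM: leaves STEP and ETA-IND (helper585)

* `boundStep_of : HK2Statement → Ihara2Statement → OldStatement → BoundStepStatement`;
* `bettiBound_of_cohCong_ne_bot` : the base of the induction (minimal level);
* `bettiBound_all` : `BettiBound N_Σ Σ (eig χ) (targetIdeal Σ)` for every `Σ ⊇ Smin` (also needed by
  the cell NMP);
* `etaAbs_of : BoundStepStatement → EtaOfBoundStatement → EtaAbsStatement`.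
-/

set_option autoImplicit false

open CongruenceSubgroup IsLocalRing Polynomial
open scoped MatrixGroups

namespace Fermat.Agent.S59.H585

open Fermat.Agent.S59.NM Fermat.Agent.S59.Arch Fermat.Agent.S41.Spec Fermat.Agent.S29.H642
  ModularCurve.Period

/-- **STEP**: the step of the Betti bound from the leaves HK2, IHARA2, OLD. -/
theorem boundStep_of (hHK2 : HK2Statement) (hI : Ihara2Statement) (hOld : OldStatement) :
    BoundStepStatement := by
  intro p _ hp2 𝒪 _ _ _ _ _ _ hp𝒪 ρbar habs hsplit N N' q hN hN' hq hqN S hpS hqS hNS a ha J hB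
  subst hN'
  haveI : CharP (ResidueField 𝒪) p := by
    rw [CharP.charP_iff_prime_eq_zero (Fact.out : p.Prime)]
    have : residue 𝒪 (p : 𝒪) = 0 := (residue_eq_zero_iff _).mpr hp𝒪
    rwa [map_natCast] at this
  have hqp : q ≠ p := fun h => hqS (h ▸ hpS)
  exact boundStep_core hHK2 hOld hN hq hqN hqS hNS
    (fun z₁ z₂ z₃ h₁ h₂ h₃ h0 => hI p hp2 (ResidueField 𝒪) ρbar habs hsplit N q hN hq hqN hqp S
      hpS (fun l => residue 𝒪 (a l)) ha z₁ z₂ z₃ h₁ h₂ h₃ h0) hB

section Base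

variable {𝒪 : Type} [CommRing 𝒪] [IsDomain 𝒪] [IsDiscreteValuationRing 𝒪]

/-- A nonzero class is a power of the uniformizer times a primitive class. -/
theorem exists_prim585 {n : ℕ} {ϖ : 𝒪} (hϖ : Irreducible ϖ) (x : Additive (Gamma0 n) →+ 𝒪)
    (hx : x ≠ 0) : ∃ (m : ℕ) (x₀ : Additive (Gamma0 n) →+ 𝒪), x = (ϖ ^ m) • x₀ ∧ IsPrim x₀ := by
  classical
  obtain ⟨g₀, hg₀⟩ : ∃ g₀, x g₀ ≠ 0 := by
    by_contra hcon
    push_neg at hcon
    exact hx (AddMonoidHom.ext hcon)
  obtain ⟨k, u, hu⟩ := IsDiscreteValuationRing.eq_unit_mul_pow_irreducible hg₀ hϖ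
  clear hx hg₀
  induction k generalizing x u with
  | zero =>
    refine ⟨0, x, by rw [pow_zero, one_smul], ⟨Additive.toMul g₀, ?_⟩⟩
    rw [pow_zero, mul_one] at hu
    show IsUnit (x g₀)
    rw [hu]
    exact u.isUnit
  | succ k ih =>
    by_cases hp : IsPrim x
    · exact ⟨0, x, by rw [pow_zero, one_smul], hp⟩
    · rw [isPrim_iff585, not_not] at hp
      obtain ⟨x', hx'⟩ := exists_eq_smul_of_residue585 hϖ x hp
      have hu' : x' g₀ = ↑u * ϖ ^ k := by
        have h1 : x g₀ = ϖ * x' g₀ := by rw [hx']; rfl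
        rw [h1, pow_succ, ← mul_assoc, mul_comm ϖ] at hu
        exact mul_right_cancel₀ hϖ.ne_zero hu
      obtain ⟨m, x₀, hm, hprim⟩ := ih x' u hu'
      refine ⟨m + 1, x₀, ?_, hprim⟩
      rw [hx', hm, smul_smul, pow_succ']

omit [IsDiscreteValuationRing 𝒪] in
theorem isEigenclass_of_smul585 {n : ℕ} {S : Finset ℕ} {a : ℕ → 𝒪} {c : 𝒪} (hc : c ≠ 0)
    {x : Additive (Gamma0 n) →+ 𝒪} (h : IsEigenclass n S a (c • x)) : IsEigenclass n S a x := by
  refine ⟨⟨fun γ hγ => ?_, fun γ hγ => ?_⟩, fun l _ hl hlS => ?_⟩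
  · have := h.1.1 γ hγ
    have h' : c * x (Additive.ofMul γ) = 0 := this
    exact (mul_eq_zero.mp h').resolve_left hc
  · have := h.1.2 γ hγ
    have h' : c * x (Additive.ofMul γ) = 0 := this
    exact (mul_eq_zero.mp h').resolve_left hc
  · have h2 := h.2 l hl hlS
    rw [heckeTransfer_smul585, smul_comm] at h2
    refine AddMonoidHom.ext fun g => ?_
    have hg : c * heckeTransfer hl x g = c * (a l • x) g := DFunLike.congr_fun h2 g
    exact mul_left_cancel₀ hc hg

/-- **Base of the induction**: if `δ(a) ≠ 0` there is a primitive eigenclass, and the Betti bound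
holds with `J = δ(a)`. -/
theorem bettiBound_of_cohCong_ne_bot {n : ℕ} (hn : n ≠ 0) {S : Finset ℕ} {a : ℕ → 𝒪}
    (h : cohCong n S a ≠ ⊥) : BettiBound n S a (cohCong n S a) := by
  classical
  haveI := finiteIndex_Gamma0' hn
  obtain ⟨ϖ, hϖ⟩ := IsDiscreteValuationRing.exists_irreducible 𝒪
  have hex : ∃ x y : Additive (Gamma0 n) →+ 𝒪, IsEigenclass n S a x ∧ IsEigenclass n S a y ∧
      maninPairing (Gamma0 n) x y ≠ 0 := by
    by_contra hcon
    push_neg at hcon
    apply h
    unfold cohCong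
    rw [Ideal.span_eq_bot]
    rintro c ⟨x, y, hx, hy, rfl⟩
    exact hcon x y hx hy
  obtain ⟨x, y, hx, hy, hxy⟩ := hex
  have hx0 : x ≠ 0 := by
    rintro rfl
    exact hxy (maninPairing_zero_left (neg_one_mem_Gamma0' n) hy.1)
  obtain ⟨m, x₀, hm, hprim⟩ := exists_prim585 hϖ x hx0
  have hx₀ : IsEigenclass n S a x₀ :=
    isEigenclass_of_smul585 (pow_ne_zero m hϖ.ne_zero) (hm ▸ hx)
  exact ⟨x₀, hx₀, hprim, fun y hy => Ideal.subset_span ⟨x₀, y, hx₀, hy, rfl⟩⟩

end Base

section Induction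

variable (p : ℕ) [Fact p.Prime]
  (𝒪 : Type) [CommRing 𝒪] [IsDomain 𝒪] [IsDiscreteValuationRing 𝒪]
  [IsAdicComplete (maximalIdeal 𝒪) 𝒪]

omit [Fact p.Prime] in
theorem wilesLevel_insert585 (t : PType) {Smin Sig : Finset ℕ} (hS : Smin ⊆ Sig)
    {q : ℕ} (hq : q ∉ Sig) :
    wilesLevel p t Smin (insert q Sig) = wilesLevel p t Smin Sig * q * q := by
  have hqm : q ∉ Smin := fun h => hq (hS h)
  have hq' : q ∉ Sig \ Smin := fun h => hq (Finset.mem_sdiff.mp h).1
  unfold wilesLevel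
  rw [Finset.insert_sdiff_of_notMem _ hqm, Finset.prod_insert hq']
  ring

omit [Fact p.Prime] [IsAdicComplete (maximalIdeal 𝒪) 𝒪] in
theorem targetIdeal_insert585 (t : PType) {Smin Sig : Finset ℕ} (hSig : Smin ⊆ Sig) {q : ℕ}
    (hq : q ∉ Sig) (a : ℕ → 𝒪) :
    targetIdeal p 𝒪 t Smin (insert q Sig) a =
      Ideal.span {cq a q} * targetIdeal p 𝒪 t Smin Sig a := by
  classical
  unfold targetIdeal
  have hqm : q ∉ Smin := fun h => hq (hSig h)
  rw [Finset.insert_sdiff_of_notMem _ hqm,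
    Finset.prod_insert (fun h => hq (Finset.mem_sdiff.mp h).1)]
  ring

variable {p 𝒪}
variable [Finite (ResidueField 𝒪)] [CharZero 𝒪]

/-- The system `eig χ` is a Frobenius system of `ρ̄` away from every `Σ ⊇ Smin`. -/
theorem isFrobSystem_eig585 {ρbar : ResidualGaloisRep (ResidueField 𝒪)} {Smin : Finset ℕ}
    (h : ResidualHyp p 𝒪 ρbar Smin) (t : PType)
    [NeZero (wilesLevel p t Smin Smin)]
    (χ : CuspForm.heckeAlgebra (wilesLevel p t Smin Smin) 2 (↑Smin : Set ℕ) →+* 𝒪)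
    (hχ : G4.ResFrobCond ρbar ((residue 𝒪).comp χ))
    {Sig : Finset ℕ} (hSig : Smin ⊆ Sig) : IsFrobSystem ρbar Sig (eig χ) := by
  intro l hl hlS B hB σ hσ
  have hlSmin : l ∉ (↑Smin : Set ℕ) := fun hh => hlS (hSig (Finset.mem_coe.mp hh))
  have hlN : ¬ l ∣ wilesLevel p t Smin Smin := fun hd =>
    hlSmin (Finset.mem_coe.mpr (mem_of_prime_dvd_wilesLevel (Fact.out : p.Prime) h.hSmin h.hSmin
      h.hpSmin (Finset.Subset.refl _) l hl hd))
  rw [eig_eq χ hl hlN hlSmin]
  exact hχ l hl hlN hlSmin B hB σ hσ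

/-- **The Betti bound at every level** `N_Σ`, `Σ ⊇ Smin`. -/
theorem bettiBound_all (hStep : BoundStepStatement)
    {ρbar : ResidualGaloisRep (ResidueField 𝒪)} {Smin : Finset ℕ}
    (h : ResidualHyp p 𝒪 ρbar Smin) (t : PType)
    [NeZero (wilesLevel p t Smin Smin)]
    (χ : CuspForm.heckeAlgebra (wilesLevel p t Smin Smin) 2 (↑Smin : Set ℕ) →+* 𝒪)
    (hχ : G4.ResFrobCond ρbar ((residue 𝒪).comp χ))
    (hδ : cohCong (wilesLevel p t Smin Smin) Smin (eig χ) ≠ ⊥)
    (Sig : Finset ℕ) (hSig : Smin ⊆ Sig) (hSigP : ∀ q ∈ Sig, q.Prime) :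
    BettiBound (wilesLevel p t Smin Sig) Sig (eig χ) (targetIdeal p 𝒪 t Smin Sig (eig χ)) := by
  classical
  have hpr : p.Prime := Fact.out
  have key : ∀ E : Finset ℕ, ∀ Sig : Finset ℕ, Smin ⊆ Sig → (∀ q ∈ Sig, q.Prime) →
      Sig \ Smin = E →
      BettiBound (wilesLevel p t Smin Sig) Sig (eig χ)
        (targetIdeal p 𝒪 t Smin Sig (eig χ)) := by
    intro E
    induction E using Finset.induction_on with
    | empty =>
      intro Sig hSig _ hE
      have hSS : Sig = Smin :=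
        Finset.Subset.antisymm (Finset.sdiff_eq_empty_iff_subset.mp hE) hSig
      subst hSS
      have : targetIdeal p 𝒪 t Sig Sig (eig χ) = cohCong (wilesLevel p t Sig Sig) Sig (eig χ) := by
        unfold targetIdeal
        rw [Finset.sdiff_self, Finset.prod_empty, Ideal.one_eq_top, Ideal.mul_top]
      rw [this]
      exact bettiBound_of_cohCong_ne_bot (NeZero.ne _) hδ
    | insert q E hqE ih =>
      intro Sig hSig hSigP hE
      have hqmem : q ∈ Sig \ Smin := by rw [hE]; exact Finset.mem_insert_self q E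
      have hqSig : q ∈ Sig := (Finset.mem_sdiff.mp hqmem).1
      have hqSmin : q ∉ Smin := (Finset.mem_sdiff.mp hqmem).2
      set Sig' := Sig.erase q with hSig'
      have hq' : q ∉ Sig' := Finset.notMem_erase q Sig
      have hins : insert q Sig' = Sig := Finset.insert_erase hqSig
      have hsub' : Smin ⊆ Sig' := fun r hr =>
        Finset.mem_erase.mpr ⟨fun hrq => hqSmin (hrq ▸ hr), hSig hr⟩
      have hP' : ∀ r ∈ Sig', r.Prime := fun r hr => hSigP r (Finset.mem_of_mem_erase hr)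
      have hE' : Sig' \ Smin = E := by
        ext r
        constructor
        · intro hr
          obtain ⟨hr1, hr2⟩ := Finset.mem_sdiff.mp hr
          have hr3 : r ∈ insert q E := by
            rw [← hE]
            exact Finset.mem_sdiff.mpr ⟨Finset.mem_of_mem_erase hr1, hr2⟩
          rcases Finset.mem_insert.mp hr3 with rfl | hr4
          · exact absurd hr1 hq'
          · exact hr4
        · intro hr
          have hr3 : r ∈ Sig \ Smin := by rw [hE]; exact Finset.mem_insert_of_mem hr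
          obtain ⟨hr1, hr2⟩ := Finset.mem_sdiff.mp hr3
          refine Finset.mem_sdiff.mpr ⟨Finset.mem_erase.mpr ⟨?_, hr1⟩, hr2⟩
          rintro rfl
          exact hqE hr
      have hB := ih Sig' hsub' hP' hE'
      have hq : q.Prime := hSigP q hqSig
      have hN : wilesLevel p t Smin Sig' ≠ 0 := wilesLevel_ne_zero hpr h.hSmin hP'
      have hNS : ∀ r : ℕ, r.Prime → r ∣ wilesLevel p t Smin Sig' → r ∈ Sig' := fun r hr hd =>
        mem_of_prime_dvd_wilesLevel hpr h.hSmin hP' h.hpSmin hsub' r hr hd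
      have hqN : ¬ q ∣ wilesLevel p t Smin Sig' := fun hd => hq' (hNS q hq hd)
      have hstep := hStep p h.hp2 𝒪 h.hp𝒪 ρbar h.habs h.hsplit (wilesLevel p t Smin Sig')
        (wilesLevel p t Smin (insert q Sig')) q hN (wilesLevel_insert585 p t hsub' hq') hq hqN
        Sig' (hsub' h.hpSmin) hq' hNS (eig χ) (isFrobSystem_eig585 h t χ hχ hsub') _ hB
      rw [← targetIdeal_insert585 p 𝒪 t hsub' hq', hins] at hstep
      exact hstep
  exact key (Sig \ Smin) Sig hSig hSigP rfl

/-- **ETA-IND**: `NM.EtaAbsStatement` from the step of the Betti bound and `η ⊆ J`. -/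
theorem etaAbs_of (hStep : BoundStepStatement) (hEta : EtaOfBoundStatement) :
    EtaAbsStatement := by
  intro p _ 𝒪 _ _ _ _ _ _ ρbar Smin h t _ hN χ hχ hδ Sig hSig hSigP hNS hint θ π hπ
  have hpr : p.Prime := Fact.out
  exact hEta p 𝒪 h.hp𝒪 (wilesLevel p t Smin Sig) Sig
    (fun r hr hd => mem_of_prime_dvd_wilesLevel hpr h.hSmin hSigP h.hpSmin hSig r hr hd)
    θ π (eig χ) hπ _ (bettiBound_all hStep h t χ hχ hδ Sig hSig hSigP)

end Induction

end Fermat.Agent.S59.H585
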