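import Fermat.Agent.S59.NM.Spec

/-!
# S59, cell NM, leaf BASE (helper585): `M` free over `T` ⇒ cohomological congruence ideal = `η_T`

`base : NM.BaseStatement`.  Mathlib-only algebra.
-/

set_option autoImplicit false

open IsLocalRing

namespace Fermat.Agent.S59.H585

open Fermat.Agent.S59 Fermat.Agent.S59.NM

section Aux

variable {𝒪 : Type} [CommRing 𝒪] [IsDomain 𝒪] [IsDiscreteValuationRing 𝒪]

/-- A vector of a finite free module over a DVR which is not divisible by the uniformiser takes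
the value `1` under some linear form. -/
theorem exists_functional_eq_one {F : Type} [AddCommGroup F] [Module 𝒪 F] [Module.Free 𝒪 F]
    [Module.Finite 𝒪 F] {ϖ : 𝒪} (hϖ : Irreducible ϖ) {x : F} (hx : ¬ ∃ y : F, x = ϖ • y) :
    ∃ g : F →ₗ[𝒪] 𝒪, g x = 1 := by
  classical
  set β := Module.Free.chooseBasis 𝒪 F with hβ
  haveI : Fintype (Module.Free.ChooseBasisIndex 𝒪 F) := Fintype.ofFinite _
  by_cases h : ∃ k, IsUnit (β.repr x k)
  · obtain ⟨k, hk⟩ := h
    obtain ⟨u, hu⟩ := hk
    refine ⟨(↑u⁻¹ : 𝒪) • β.coord k, ?_⟩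
    rw [LinearMap.smul_apply, Module.Basis.coord_apply, ← hu, smul_eq_mul, Units.inv_mul]
  · exfalso
    apply hx
    have h' : ∀ k, ∃ c : 𝒪, β.repr x k = ϖ * c := by
      intro k
      have hk : β.repr x k ∈ maximalIdeal 𝒪 := by
        by_contra hk
        exact h ⟨k, notMem_maximalIdeal.mp hk⟩
      rw [hϖ.maximalIdeal_eq, Ideal.mem_span_singleton'] at hk
      obtain ⟨c, hc⟩ := hk
      exact ⟨c, by rw [← hc, mul_comm]⟩
    choose c hc using h'
    refine ⟨∑ k, c k • β k, ?_⟩
    rw [Finset.smul_sum]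
    conv_lhs => rw [← β.sum_repr x]
    refine Finset.sum_congr rfl fun k _ => ?_
    rw [hc k, mul_smul]

end Aux

/-- **BASE.** -/
theorem base : BaseStatement := by
  intro 𝒪 _ _ _ T _ _ _ _ _ π M _ _ _ _ ι _ _ b B hperf hadj
  classical
  haveI : Fintype ι := Fintype.ofFinite ι
  obtain ⟨ϖ, hϖ⟩ := IsDiscreteValuationRing.exists_irreducible 𝒪
  have hϖ0 : ϖ ≠ 0 := hϖ.ne_zero
  -- elements of `Ann (ker π)` act on `M[ker π]` through `π`
  have hact : ∀ (s : T) (m : M), (∀ s' : T, π s' = 0 → s' • m = 0) → s • m = π s • m := by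
    intro s m hm
    have h1 := hm (s - algebraMap 𝒪 T (π s)) (by simp)
    rw [sub_smul, sub_eq_zero, algebraMap_smul] at h1
    exact h1
  -- `e • m ∈ M[ker π]` for `e ∈ Ann (ker π)`
  have hmem : ∀ (e : T), e ∈ NC.annAug π → ∀ (m : M) (s : T), π s = 0 → s • e • m = 0 := by
    intro e he m s hs
    rw [smul_smul, mul_comm, NC.mem_annAug.mp he s (NC.mem_augIdeal.mpr hs), zero_smul]
  apply le_antisymm
  · -- `⊆`
    rw [Ideal.span_le]
    rintro c ⟨m, m', hm, hm', rfl⟩
    have hcoord : ∀ i, b.repr m i ∈ NC.annAug π := by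
      intro i
      rw [NC.mem_annAug]
      intro y hy
      have h1 : y • m = 0 := hm y (NC.mem_augIdeal.mp hy)
      have h2 : b.repr (y • m) i = 0 := by rw [h1]; simp
      rw [map_smul, Finsupp.smul_apply, smul_eq_mul] at h2
      rw [mul_comm]
      exact h2
    have hsum : B m m' = ∑ i, π (b.repr m i) * B (b i) m' := by
      conv_lhs => rw [← b.sum_repr m]
      rw [map_sum, LinearMap.sum_apply]
      refine Finset.sum_congr rfl fun i _ => ?_
      rw [hadj, hact _ m' hm', map_smul, smul_eq_mul]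
    rw [hsum]
    refine Ideal.sum_mem _ fun i _ => ?_
    exact Ideal.mul_mem_right _ _ (NC.mem_congIdeal.mpr ⟨_, hcoord i, rfl⟩)
  · -- `⊇`
    set Δ : Ideal 𝒪 := Ideal.span {c : 𝒪 | ∃ m m' : M, (∀ s : T, π s = 0 → s • m = 0) ∧
      (∀ s : T, π s = 0 → s • m' = 0) ∧ B m m' = c} with hΔ
    -- the primitive case
    have hprim : ∀ e : T, e ∈ NC.annAug π → (¬ ∃ e₁ : T, e = ϖ • e₁) → π e ∈ Δ := by
      intro e he hne
      obtain ⟨g, hg⟩ := exists_functional_eq_one hϖ hne
      obtain ⟨i₀⟩ := ‹Nonempty ι›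
      let f : M →ₗ[𝒪] 𝒪 := g.comp ((b.coord i₀).restrictScalars 𝒪)
      have hf : f (e • b i₀) = 1 := by
        show g (b.coord i₀ (e • b i₀)) = 1
        rw [map_smul, Module.Basis.coord_apply, Module.Basis.repr_self, Finsupp.single_eq_same,
          smul_eq_mul, mul_one, hg]
      obtain ⟨m'', hm''⟩ := hperf f
      have h1 : B (e • b i₀) (e • m'') = π e := by
        rw [← hadj, hact e (e • b i₀) (hmem e he (b i₀)), map_smul, LinearMap.smul_apply,
          hm'', hf, smul_eq_mul, mul_one]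
      rw [← h1]
      exact Ideal.subset_span ⟨e • b i₀, e • m'', hmem e he _, hmem e he _, rfl⟩
    -- induction on the valuation of `π e`
    have hind : ∀ (n : ℕ) (e : T), e ∈ NC.annAug π → (∃ u : 𝒪ˣ, π e = u * ϖ ^ n) → π e ∈ Δ := by
      intro n
      induction n with
      | zero =>
        intro e he hu
        apply hprim e he
        rintro ⟨e₁, rfl⟩
        obtain ⟨u, hu⟩ := hu
        rw [map_smul, pow_zero, mul_one, smul_eq_mul] at hu
        have : IsUnit ϖ := isUnit_of_mul_isUnit_left (hu ▸ u.isUnit)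
        exact hϖ.not_isUnit this
      | succ n ih =>
        intro e he hu
        by_cases hdiv : ∃ e₁ : T, e = ϖ • e₁
        · obtain ⟨e₁, rfl⟩ := hdiv
          obtain ⟨u, hu⟩ := hu
          have he₁ : e₁ ∈ NC.annAug π := by
            rw [NC.mem_annAug] at he ⊢
            intro y hy
            have h1 := he y hy
            rw [smul_mul_assoc] at h1
            exact (smul_eq_zero.mp h1).resolve_left hϖ0
          have h2 : π e₁ = u * ϖ ^ n := by
            rw [map_smul, smul_eq_mul, pow_succ] at hu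
            have : ϖ * π e₁ = ϖ * (u * ϖ ^ n) := by rw [hu]; ring
            exact mul_left_cancel₀ hϖ0 this
          rw [map_smul, smul_eq_mul]
          exact Ideal.mul_mem_left _ _ (ih e₁ he₁ ⟨u, h2⟩)
        · exact hprim e he hdiv
    intro c hc
    obtain ⟨e, he, rfl⟩ := NC.mem_congIdeal.mp hc
    by_cases h0 : π e = 0
    · rw [h0]; exact Ideal.zero_mem _
    · obtain ⟨n, u, hu⟩ := IsDiscreteValuationRing.eq_unit_mul_pow_irreducible h0 hϖ
      exact hind n e he ⟨u, hu⟩

end Fermat.Agent.S59.H585
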