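import Fermat.Agent.S59.H585.EtaInd
import Fermat.Agent.S59.H202.HK2

/-!
# S59, cell NM: NM-ETA from its open leaves (helper585)

With HK2 (`H202.hk2`), ADJ2, PERF, BASE on main, the Hecke side of the cell NM is reduced to
three leaves: `NM.Ihara2Statement`, `NM.OldStatement`, `NM.EtaOfBoundStatement`.
-/

set_option autoImplicit false

namespace Fermat.Agent.S59.H585

open Fermat.Agent.S59.NM

/-- **STEP** from IHARA2 and OLD. -/
theorem boundStep_of_leaves (hI : Ihara2Statement) (hOld : OldStatement) : BoundStepStatement :=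
  boundStep_of Fermat.Agent.S59.H202.hk2 hI hOld

/-- **NM-ETA** from IHARA2, OLD and ETAB. -/
theorem etaAbs_of_leaves (hI : Ihara2Statement) (hOld : OldStatement)
    (hEta : EtaOfBoundStatement) : EtaAbsStatement :=
  etaAbs_of (boundStep_of_leaves hI hOld) hEta

end Fermat.Agent.S59.H585
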