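import Fermat.Agent.S59.H585.StepGram
import Fermat.Agent.S59.H585.Perf

/-!
# S59, cell NM, leaf STEP, part 3 (helper585): the step of the Betti bound

`boundStep_core` : `BettiBound N S a J → BettiBound (N q²) (S ∪ {q}) a ((c_q) J)` over a DVR `𝒪`
of characteristic `0`, from
* `NM.HK2Statement` (on main: `H202.hk2`), `NM.OldStatement`;
* Ihara's lemma `N → N q²` for the reduction of the system `a` ONLY (hypothesis `hI`), so that
  both `NM.Ihara2Statement` and the curve case (`S41.iharaEigen_main`) plug in.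
-/

set_option autoImplicit false

open CongruenceSubgroup IsLocalRing
open scoped MatrixGroups

namespace Fermat.Agent.S59.H585

open Fermat.Agent.S59.NM Fermat.Agent.S41.Spec Fermat.Agent.S29.H642 ModularCurve.Period

section Lift

/-- A homomorphism with values in the range of an injective additive map lifts. -/
theorem exists_hom_of_range585 {G A B : Type} [AddZeroClass G] [AddCommGroup A]
    [AddCommGroup B] (ι : A →+ B) (hι : Function.Injective ι) (f : G →+ B)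
    (h : ∀ g, ∃ c, ι c = f g) : ∃ w : G →+ A, ι.comp w = f := by
  classical
  choose c hc using h
  refine ⟨{ toFun := c, map_zero' := hι ?_, map_add' := fun g g' => hι ?_ }, ?_⟩
  · rw [hc, map_zero, map_zero]
  · rw [map_add, hc, hc, hc, map_add]
  · exact AddMonoidHom.ext fun g => hc g

variable {𝒪 : Type} [CommRing 𝒪] [IsDomain 𝒪] [IsDiscreteValuationRing 𝒪]

/-- A homomorphism to a DVR which vanishes modulo the maximal ideal is divisible by a
uniformizer. -/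
theorem exists_eq_smul_of_residue585 {G : Type} [AddZeroClass G] {ϖ : 𝒪} (hϖ : Irreducible ϖ)
    (w : G →+ 𝒪) (h : (residue 𝒪).toAddMonoidHom.comp w = 0) :
    ∃ w' : G →+ 𝒪, w = ϖ • w' := by
  have hinj : Function.Injective (AddMonoidHom.mulLeft ϖ) := by
    intro u v huv
    exact mul_left_cancel₀ hϖ.ne_zero huv
  obtain ⟨w', hw'⟩ := exists_hom_of_range585 (AddMonoidHom.mulLeft ϖ) hinj w (fun g => by
    have hg : residue 𝒪 (w g) = 0 := DFunLike.congr_fun h g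
    rw [residue_eq_zero_iff, hϖ.maximalIdeal_eq, Ideal.mem_span_singleton] at hg
    obtain ⟨c, hc⟩ := hg
    exact ⟨c, hc.symm⟩)
  exact ⟨w', hw'.symm⟩

/-- Primitive classes are the classes with nonzero reduction. -/
theorem isPrim_iff585 {n : ℕ} (x : Additive (Gamma0 n) →+ 𝒪) :
    IsPrim x ↔ (residue 𝒪).toAddMonoidHom.comp x ≠ 0 := by
  constructor
  · rintro ⟨γ, hγ⟩ h
    have hg : residue 𝒪 (x (Additive.ofMul γ)) = 0 := DFunLike.congr_fun h _
    rw [residue_eq_zero_iff] at hg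
    exact (mem_maximalIdeal _).mp hg hγ
  · intro h
    by_contra hcon
    apply h
    refine AddMonoidHom.ext fun g => ?_
    show residue 𝒪 (x g) = 0
    rw [residue_eq_zero_iff, mem_maximalIdeal]
    intro hu
    exact hcon ⟨Additive.toMul g, hu⟩

end Lift

section Denominators

variable {𝒪 : Type} [CommRing 𝒪] [IsDomain 𝒪] [IsDiscreteValuationRing 𝒪] [CharZero 𝒪]

/-- Bounded denominators: a cuspidal class with values in the fraction field becomes integral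
after multiplication by a power of the uniformizer. -/
theorem exists_pow_smul_integral585 {n : ℕ} (hn : n ≠ 0) {ϖ : 𝒪} (hϖ : Irreducible ϖ)
    {z : Additive (Gamma0 n) →+ FractionRing 𝒪} (hz : IsCuspidal z) :
    ∃ (m : ℕ) (w : Additive (Gamma0 n) →+ 𝒪),
      (algebraMap 𝒪 (FractionRing 𝒪)).toAddMonoidHom.comp w =
        (algebraMap 𝒪 (FractionRing 𝒪) ϖ ^ m) • z := by
  classical
  haveI := finiteIndex_Gamma0' hn
  set K := FractionRing 𝒪
  set ι : 𝒪 →+* K := algebraMap 𝒪 K with hι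
  have hinj : Function.Injective ι := IsFractionRing.injective 𝒪 K
  obtain ⟨κ, _, v, ζ, -, hzv⟩ := exists_lincomb (R := K) hz
  obtain ⟨b, hb⟩ := IsLocalization.exist_integer_multiples_of_finset (nonZeroDivisors 𝒪)
    (Finset.univ.image v)
  have hb0 : (b : 𝒪) ≠ 0 := nonZeroDivisors.coe_ne_zero b
  obtain ⟨m, u, hu⟩ := IsDiscreteValuationRing.eq_unit_mul_pow_irreducible hb0 hϖ
  have hint : ∀ k, ∃ c : 𝒪, ι c = ι ϖ ^ m * v k := by
    intro k
    obtain ⟨c, hc⟩ := hb (v k) (Finset.mem_image_of_mem v (Finset.mem_univ k))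
    refine ⟨(↑u⁻¹ : 𝒪) * c, ?_⟩
    rw [map_mul, hc, Algebra.smul_def, ← mul_assoc, ← map_mul]
    congr 1
    rw [← map_pow, hu, ← mul_assoc, Units.inv_mul, one_mul]
  choose c hc using hint
  refine ⟨m, ?_⟩
  apply exists_hom_of_range585 ι.toAddMonoidHom hinj
  intro g
  refine ⟨∑ k, c k * ((ζ k g : ℤ) : 𝒪), ?_⟩
  show ι (∑ k, c k * ((ζ k g : ℤ) : 𝒪)) = ι ϖ ^ m * z g
  rw [map_sum, hzv g, Finset.mul_sum]
  refine Finset.sum_congr rfl fun k _ => ?_
  rw [map_mul, hc k, map_intCast, mul_assoc]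

end Denominators

section Core

variable {𝒪 : Type} [CommRing 𝒪] [IsDomain 𝒪] [IsDiscreteValuationRing 𝒪] [CharZero 𝒪]

/-- The Ihara hypothesis for the reduction of the system `a`, at `(N, q, S)`. -/
def IharaAt585 (𝒪 : Type) [CommRing 𝒪] [IsLocalRing 𝒪] (N q : ℕ) (S : Finset ℕ) (a : ℕ → 𝒪) :
    Prop :=
  ∀ z₁ z₂ z₃ : Additive (Gamma0 N) →+ ResidueField 𝒪,
    IsEigenclass N (insert q S) (fun l => residue 𝒪 (a l)) z₁ →
    IsEigenclass N (insert q S) (fun l => residue 𝒪 (a l)) z₂ →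
    IsEigenclass N (insert q S) (fun l => residue 𝒪 (a l)) z₃ →
    P₁ N q z₁ + P₂ N q z₂ + P₃ N q z₃ = 0 → z₁ = 0 ∧ z₂ = 0 ∧ z₃ = 0

theorem P_comp585 {A B : Type} [AddCommGroup A] [AddCommGroup B] (π : A →+ B) {N q : ℕ}
    (z₁ z₂ z₃ : Additive (Gamma0 N) →+ A) :
    π.comp (P₁ N q z₁ + P₂ N q z₂ + P₃ N q z₃) =
      P₁ N q (π.comp z₁) + P₂ N q (π.comp z₂) + P₃ N q (π.comp z₃) := by
  refine AddMonoidHom.ext fun g => ?_
  show π (P₁ N q z₁ g + P₂ N q z₂ g + P₃ N q z₃ g) = _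
  rw [map_add, map_add]
  rfl

theorem P_smul585 {R : Type} [CommRing R] (c : R) {N q : ℕ}
    (z₁ z₂ z₃ : Additive (Gamma0 N) →+ R) :
    P₁ N q (c • z₁) + P₂ N q (c • z₂) + P₃ N q (c • z₃) =
      c • (P₁ N q z₁ + P₂ N q z₂ + P₃ N q z₃) := by
  refine AddMonoidHom.ext fun g => ?_
  show c * P₁ N q z₁ g + c * P₂ N q z₂ g + c * P₃ N q z₃ g =
    c * (P₁ N q z₁ g + P₂ N q z₂ g + P₃ N q z₃ g)
  ring

/-- **Saturation**: if `P₁ z₁ + P₂ z₂ + P₃ z₃` is integral, the eigenclasses `z_i` are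
integral (Ihara's lemma). -/
theorem integral_of_old585 {N q : ℕ} (hN : N ≠ 0) {S : Finset ℕ} {a : ℕ → 𝒪}
    (hI : IharaAt585 𝒪 N q S a)
    {z₁ z₂ z₃ : Additive (Gamma0 N) →+ FractionRing 𝒪}
    (h₁ : IsEigenclass N S (fun l => algebraMap 𝒪 (FractionRing 𝒪) (a l)) z₁)
    (h₂ : IsEigenclass N S (fun l => algebraMap 𝒪 (FractionRing 𝒪) (a l)) z₂)
    (h₃ : IsEigenclass N S (fun l => algebraMap 𝒪 (FractionRing 𝒪) (a l)) z₃)
    {y : Additive (Gamma0 (N * q * q)) →+ 𝒪}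
    (hy : (algebraMap 𝒪 (FractionRing 𝒪)).toAddMonoidHom.comp y =
      P₁ N q z₁ + P₂ N q z₂ + P₃ N q z₃) :
    ∃ w₁ w₂ w₃ : Additive (Gamma0 N) →+ 𝒪,
      (algebraMap 𝒪 (FractionRing 𝒪)).toAddMonoidHom.comp w₁ = z₁ ∧
      (algebraMap 𝒪 (FractionRing 𝒪)).toAddMonoidHom.comp w₂ = z₂ ∧
      (algebraMap 𝒪 (FractionRing 𝒪)).toAddMonoidHom.comp w₃ = z₃ := by
  classical
  obtain ⟨ϖ, hϖ⟩ := IsDiscreteValuationRing.exists_irreducible 𝒪
  set K := FractionRing 𝒪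
  set ι : 𝒪 →+* K := algebraMap 𝒪 K with hι
  have hinj : Function.Injective ι := IsFractionRing.injective 𝒪 K
  have hϖK : ι ϖ ≠ 0 := fun h => hϖ.ne_zero (hinj (by rw [h, map_zero]))
  -- the statement with a power of the uniformizer
  have key : ∀ m : ℕ, ∀ w₁ w₂ w₃ : Additive (Gamma0 N) →+ 𝒪,
      ι.toAddMonoidHom.comp w₁ = (ι ϖ ^ m) • z₁ → ι.toAddMonoidHom.comp w₂ = (ι ϖ ^ m) • z₂ →
      ι.toAddMonoidHom.comp w₃ = (ι ϖ ^ m) • z₃ →
      ∃ w₁ w₂ w₃ : Additive (Gamma0 N) →+ 𝒪,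
        ι.toAddMonoidHom.comp w₁ = z₁ ∧ ι.toAddMonoidHom.comp w₂ = z₂ ∧
        ι.toAddMonoidHom.comp w₃ = z₃ := by
    intro m
    induction m with
    | zero =>
      intro w₁ w₂ w₃ e₁ e₂ e₃
      rw [pow_zero, one_smul] at e₁ e₂ e₃
      exact ⟨w₁, w₂, w₃, e₁, e₂, e₃⟩
    | succ m ih =>
      intro w₁ w₂ w₃ e₁ e₂ e₃
      -- the `w_i` are eigenclasses
      have hw : ∀ {w : Additive (Gamma0 N) →+ 𝒪} {z : Additive (Gamma0 N) →+ K},
          IsEigenclass N S (fun l => ι (a l)) z →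
          ι.toAddMonoidHom.comp w = (ι ϖ ^ (m + 1)) • z → IsEigenclass N S a w := by
        intro w z hz e
        apply isEigenclass_of_map585 ι hinj
        rw [e]
        exact isEigenclass_smul585 _ hz
      have hw₁ := hw h₁ e₁
      have hw₂ := hw h₂ e₂
      have hw₃ := hw h₃ e₃
      -- `Σ P_i w_i = ϖ^(m+1) y`
      have hsum : P₁ N q w₁ + P₂ N q w₂ + P₃ N q w₃ = (ϖ ^ (m + 1)) • y := by
        refine AddMonoidHom.ext fun g => hinj ?_
        have h1 := DFunLike.congr_fun (P_comp585 ι.toAddMonoidHom (N := N) (q := q) w₁ w₂ w₃) g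
        rw [e₁, e₂, e₃, P_smul585, ← hy] at h1
        have h2 : ι ((P₁ N q w₁ + P₂ N q w₂ + P₃ N q w₃) g) =
            ι ϖ ^ (m + 1) * ι (y g) := h1
        rw [h2]
        show _ = ι (ϖ ^ (m + 1) * y g)
        rw [map_mul, map_pow]
      -- reduction
      have hred : P₁ N q ((residue 𝒪).toAddMonoidHom.comp w₁) +
          P₂ N q ((residue 𝒪).toAddMonoidHom.comp w₂) +
          P₃ N q ((residue 𝒪).toAddMonoidHom.comp w₃) = 0 := by
        rw [← P_comp585, hsum]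
        refine AddMonoidHom.ext fun g => ?_
        show residue 𝒪 (ϖ ^ (m + 1) * y g) = 0
        rw [residue_eq_zero_iff, hϖ.maximalIdeal_eq, Ideal.mem_span_singleton]
        exact Dvd.dvd.mul_right (dvd_pow_self ϖ (Nat.succ_ne_zero m)) _
      have hS : S ⊆ insert q S := Finset.subset_insert q S
      obtain ⟨r₁0, r₂0, r₃0⟩ := hI _ _ _
        (isEigenclass_map585 (residue 𝒪) (isEigenclass_mono585 hS hw₁)) (isEigenclass_map585 (residue 𝒪) (isEigenclass_mono585 hS hw₂))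
        (isEigenclass_map585 (residue 𝒪) (isEigenclass_mono585 hS hw₃)) hred
      obtain ⟨w₁', hw₁'⟩ := exists_eq_smul_of_residue585 hϖ w₁ r₁0
      obtain ⟨w₂', hw₂'⟩ := exists_eq_smul_of_residue585 hϖ w₂ r₂0
      obtain ⟨w₃', hw₃'⟩ := exists_eq_smul_of_residue585 hϖ w₃ r₃0
      have hdiv : ∀ {w w' : Additive (Gamma0 N) →+ 𝒪} {z : Additive (Gamma0 N) →+ K},
          w = ϖ • w' → ι.toAddMonoidHom.comp w = (ι ϖ ^ (m + 1)) • z →
          ι.toAddMonoidHom.comp w' = (ι ϖ ^ m) • z := by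
        intro w w' z e e'
        refine AddMonoidHom.ext fun g => ?_
        have hg := DFunLike.congr_fun e' g
        have hg' : ι (w g) = ι ϖ ^ (m + 1) * z g := hg
        rw [e] at hg'
        have hg'' : ι (ϖ * w' g) = ι ϖ ^ (m + 1) * z g := hg'
        rw [map_mul, pow_succ', mul_assoc] at hg''
        exact mul_left_cancel₀ hϖK hg''
      exact ih w₁' w₂' w₃' (hdiv hw₁' e₁) (hdiv hw₂' e₂) (hdiv hw₃' e₃)
  -- bounded denominators
  obtain ⟨m₁, v₁, e₁⟩ := exists_pow_smul_integral585 hN hϖ h₁.1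
  obtain ⟨m₂, v₂, e₂⟩ := exists_pow_smul_integral585 hN hϖ h₂.1
  obtain ⟨m₃, v₃, e₃⟩ := exists_pow_smul_integral585 hN hϖ h₃.1
  have hup : ∀ {m : ℕ} {v : Additive (Gamma0 N) →+ 𝒪} {z : Additive (Gamma0 N) →+ K} (k : ℕ),
      ι.toAddMonoidHom.comp v = (ι ϖ ^ m) • z →
      ι.toAddMonoidHom.comp ((ϖ ^ k) • v) = (ι ϖ ^ (m + k)) • z := by
    intro m v z k e
    refine AddMonoidHom.ext fun g => ?_
    have hg : ι (v g) = ι ϖ ^ m * z g := DFunLike.congr_fun e g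
    show ι (ϖ ^ k * v g) = ι ϖ ^ (m + k) * z g
    rw [map_mul, hg, map_pow, pow_add]
    ring
  refine key (m₁ + m₂ + m₃) ((ϖ ^ (m₂ + m₃)) • v₁) ((ϖ ^ (m₁ + m₃)) • v₂)
    ((ϖ ^ (m₁ + m₂)) • v₃) ?_ ?_ ?_
  · rw [hup (m₂ + m₃) e₁, ← add_assoc]
  · rw [hup (m₁ + m₃) e₂]
    congr 2
    omega
  · rw [hup (m₁ + m₂) e₃]
    congr 2
    omega

/-- **BOUND-STEP, core form.** -/
theorem boundStep_core (hHK2 : HK2Statement) (hOld : OldStatement)
    {N q : ℕ} (hN : N ≠ 0) (hq : q.Prime) (hqN : ¬ q ∣ N)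
    {S : Finset ℕ} (hqS : q ∉ S) (hNS : ∀ r : ℕ, r.Prime → r ∣ N → r ∈ S)
    {a : ℕ → 𝒪} (hI : IharaAt585 𝒪 N q S a) {J : Ideal 𝒪}
    (hB : BettiBound N S a J) :
    BettiBound (N * q * q) (insert q S) a (Ideal.span {cq a q} * J) := by
  classical
  haveI : Fact q.Prime := ⟨hq⟩
  obtain ⟨x, hx, hprim, hxJ⟩ := hB
  have hS : S ⊆ insert q S := Finset.subset_insert q S
  set K := FractionRing 𝒪
  set ι : 𝒪 →+* K := algebraMap 𝒪 K with hι
  have hinj : Function.Injective ι := IsFractionRing.injective 𝒪 K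
  refine ⟨xi585 N q (a q) x, isEigenclass_xi585 (a q) (isEigenclass_mono585 hS hx), ?_, ?_⟩
  · -- primitivity
    rw [isPrim_iff585] at hprim ⊢
    intro h0
    apply hprim
    rw [xi585_comp, xi585_eq] at h0
    have hxk := isEigenclass_map585 (residue 𝒪) (isEigenclass_mono585 hS hx)
    exact (hI _ _ _ (isEigenclass_smul585 _ hxk) (isEigenclass_smul585 _ hxk) hxk h0).2.2
  · intro y hy
    -- oldness over the fraction field
    have hx0 : ι.toAddMonoidHom.comp x ≠ 0 := by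
      intro h0
      obtain ⟨γ, hγ⟩ := hprim
      have : ι (x (Additive.ofMul γ)) = 0 := DFunLike.congr_fun h0 _
      rw [map_eq_zero_iff ι hinj] at this
      rw [this] at hγ
      exact not_isUnit_zero hγ
    obtain ⟨z₁, z₂, z₃, h₁, h₂, h₃, hyz⟩ := hOld K N q hN hq hqN S hqS hNS
      (fun l => ι (a l)) ⟨_, hx0, isEigenclass_map585 ι hx⟩ _ (isEigenclass_map585 ι hy)
    obtain ⟨w₁, w₂, w₃, e₁, e₂, e₃⟩ := integral_of_old585 hN hI h₁ h₂ h₃ hyz
    have hw₁ : IsEigenclass N S a w₁ := isEigenclass_of_map585 ι hinj (by rw [e₁]; exact h₁)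
    have hw₂ : IsEigenclass N S a w₂ := isEigenclass_of_map585 ι hinj (by rw [e₂]; exact h₂)
    have hw₃ : IsEigenclass N S a w₃ := isEigenclass_of_map585 ι hinj (by rw [e₃]; exact h₃)
    have hyw : y = P₁ N q w₁ + P₂ N q w₂ + P₃ N q w₃ := by
      refine AddMonoidHom.ext fun g => hinj ?_
      have h1 := DFunLike.congr_fun (P_comp585 ι.toAddMonoidHom (N := N) (q := q) w₁ w₂ w₃) g
      rw [e₁, e₂, e₃, ← hyz] at h1
      exact h1.symm
    rw [hyw, pairing_xi585_old hHK2 hN hqN (a q) hx.1 hw₁.1 hw₂.1 hw₃.1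
      (hw₁.2 q hqN hqS) (hw₂.2 q hqN hqS) (hw₃.2 q hqN hqS)]
    exact Ideal.mul_mem_mul (neg_mem (Ideal.subset_span rfl)) (hxJ w₁ hw₁)

end Core

end Fermat.Agent.S59.H585
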