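import Fermat.Agent.S59.H585.StepLin

/-!
# S59, cell NM, leaf STEP, part 2 (helper585): the Gram computation

`x' = q P₁ x - a_q P₂ x + P₃ x`.  For cuspidal `x` and `T_q`-eigenclasses `w₁ w₂ w₃` of level `N`
(eigenvalue `a_q`):

    B_{N q²}(x', P₁ w₁ + P₂ w₂ + P₃ w₃) = - c_q · B_N(x, w₁),   c_q = (q - 1)(a_q² - (q + 1)²).

Inputs: adjunction `H585.adj2` (both stages), HK-3, HK-4 (first stage, `S41.H281.hkStatement`),
`NM.HK2Statement` (second stage).
-/

set_option autoImplicit false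

open CongruenceSubgroup
open scoped MatrixGroups

namespace Fermat.Agent.S59.H585

open Fermat.Agent.S59.NM Fermat.Agent.S41.Spec Fermat.Agent.S29.H642 ModularCurve.Period

section Gram

variable {R : Type} [CommRing R] {N q : ℕ}

/-- The adjoint of `ξ = q P₁ - a_q P₂ + P₃`. -/
noncomputable def xiAdj585 (N q : ℕ) (aq : R) (y : Additive (Gamma0 (N * q * q)) →+ R) :
    Additive (Gamma0 N) →+ R :=
  (q : R) • t₁ N q (t₁ (N * q) q y) - aq • t₂ N q (t₁ (N * q) q y) + t₂ N q (t₂ (N * q) q y)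

/-- `ξ x`. -/
def xi585 (N q : ℕ) (aq : R) (x : Additive (Gamma0 N) →+ R) :
    Additive (Gamma0 (N * q * q)) →+ R :=
  (q : R) • P₁ N q x - aq • P₂ N q x + P₃ N q x

theorem isCuspidal_xi585 (aq : R) {x : Additive (Gamma0 N) →+ R} (hx : IsCuspidal x) :
    IsCuspidal (xi585 N q aq x) :=
  isCuspidal_add585 (isCuspidal_sub585 (isCuspidal_smul585 _ (isCuspidal_P₁585 hx))
    (isCuspidal_smul585 _ (isCuspidal_P₂585 hx))) (isCuspidal_P₃585 hx)

theorem isEigenclass_xi585 {S : Finset ℕ} {a : ℕ → R} (aq : R)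
    {x : Additive (Gamma0 N) →+ R} (hx : IsEigenclass N (insert q S) a x) :
    IsEigenclass (N * q * q) (insert q S) a (xi585 N q aq x) :=
  isEigenclass_add585 (isEigenclass_sub585 (isEigenclass_smul585 _ (isEigenclass_P₁585 hx))
    (isEigenclass_smul585 _ (isEigenclass_P₂585 hx))) (isEigenclass_P₃585 hx)

theorem xi585_comp {R' : Type} [CommRing R'] (f : R →+* R') (aq : R)
    (x : Additive (Gamma0 N) →+ R) :
    f.toAddMonoidHom.comp (xi585 N q aq x) = xi585 N q (f aq) (f.toAddMonoidHom.comp x) := by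
  refine AddMonoidHom.ext fun g => ?_
  show f ((q : R) * P₁ N q x g - aq * P₂ N q x g + P₃ N q x g) =
    (q : R') * f (P₁ N q x g) - f aq * f (P₂ N q x g) + f (P₃ N q x g)
  simp only [map_add, map_sub, map_mul, map_natCast]

/-- `ξ x = P₁ (q x) + P₂ (- a_q x) + P₃ x`. -/
theorem xi585_eq (aq : R) (x : Additive (Gamma0 N) →+ R) :
    xi585 N q aq x = P₁ N q ((q : R) • x) + P₂ N q ((-aq) • x) + P₃ N q x := by
  refine AddMonoidHom.ext fun g => ?_
  show (q : R) * P₁ N q x g - aq * P₂ N q x g + P₃ N q x g =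
    (q : R) * P₁ N q x g + (-aq) * P₂ N q x g + P₃ N q x g
  ring

variable [IsDomain R]

/-- Adjunction: `B'(ξ x, y) = B(x, ξ† y)`. -/
theorem pairing_xi585 (hN : N ≠ 0) (hq : q.Prime) (aq : R) {x : Additive (Gamma0 N) →+ R}
    {y : Additive (Gamma0 (N * q * q)) →+ R} (hx : IsCuspidal x) (hy : IsCuspidal y) :
    maninPairing (Gamma0 (N * q * q)) (xi585 N q aq x) y =
      maninPairing (Gamma0 N) x (xiAdj585 N q aq y) := by
  have hNq : N * q ≠ 0 := Nat.mul_ne_zero hN hq.ne_zero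
  have hFI := finiteIndex_Gamma0' hN
  have hFI'' := finiteIndex_Gamma0' (Nat.mul_ne_zero hNq hq.ne_zero)
  have hneg := neg_one_mem_Gamma0' N
  have hneg'' := neg_one_mem_Gamma0' (N * q * q)
  have a1 := (adj2 R N q hN hq).1
  have a2 := (adj2 R (N * q) q hNq hq).1
  have ht1 : IsCuspidal (t₁ (N * q) q y) := isCuspidal_t₁585 hy
  have ht2 : IsCuspidal (t₂ (N * q) q y) := isCuspidal_t₂585 hy
  have e1 : maninPairing (Gamma0 (N * q * q)) (P₁ N q x) y =
      maninPairing (Gamma0 N) x (t₁ N q (t₁ (N * q) q y)) := by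
    rw [P₁, (a2 (r₁ N q x) y (isCuspidal_r₁585 hx) hy).1, (a1 x _ hx ht1).1]
  have e2 : maninPairing (Gamma0 (N * q * q)) (P₂ N q x) y =
      maninPairing (Gamma0 N) x (t₂ N q (t₁ (N * q) q y)) := by
    rw [P₂, (a2 (r₂ N q x) y (isCuspidal_r₂585 hx) hy).1, (a1 x _ hx ht1).2]
  have e3 : maninPairing (Gamma0 (N * q * q)) (P₃ N q x) y =
      maninPairing (Gamma0 N) x (t₂ N q (t₂ (N * q) q y)) := by
    rw [P₃, (a2 (r₂ N q x) y (isCuspidal_r₂585 hx) hy).2, (a1 x _ hx ht2).2]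
  have c1 : IsCuspidal (P₁ N q x) := isCuspidal_P₁585 hx
  have c2 : IsCuspidal (P₂ N q x) := isCuspidal_P₂585 hx
  have c3 : IsCuspidal (P₃ N q x) := isCuspidal_P₃585 hx
  have d1 : IsCuspidal (t₁ N q (t₁ (N * q) q y)) := isCuspidal_t₁585 ht1
  have d2 : IsCuspidal (t₂ N q (t₁ (N * q) q y)) := isCuspidal_t₂585 ht1
  have d3 : IsCuspidal (t₂ N q (t₂ (N * q) q y)) := isCuspidal_t₂585 ht2
  have hsubL : ∀ {φ φ' ψ : Additive (Gamma0 (N * q * q)) →+ R}, IsCuspidal φ → IsCuspidal φ' →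
      IsCuspidal ψ → maninPairing (Gamma0 (N * q * q)) (φ - φ') ψ =
        maninPairing (Gamma0 (N * q * q)) φ ψ - maninPairing (Gamma0 (N * q * q)) φ' ψ := by
    intro φ φ' ψ h h' hψ
    have := maninPairing_add_left hneg'' (isCuspidal_sub585 h h') h' hψ
    rw [sub_add_cancel] at this
    rw [this, add_sub_cancel_right]
  have hsubR : ∀ {φ ψ ψ' : Additive (Gamma0 N) →+ R}, IsCuspidal φ → IsCuspidal ψ →
      IsCuspidal ψ' → maninPairing (Gamma0 N) φ (ψ - ψ') =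
        maninPairing (Gamma0 N) φ ψ - maninPairing (Gamma0 N) φ ψ' := by
    intro φ ψ ψ' h hψ hψ'
    have := maninPairing_add_right hneg h (isCuspidal_sub585 hψ hψ') hψ'
    rw [sub_add_cancel] at this
    rw [this, add_sub_cancel_right]
  unfold xi585 xiAdj585
  rw [maninPairing_add_left hneg'' (isCuspidal_sub585 (isCuspidal_smul585 _ c1)
      (isCuspidal_smul585 _ c2)) c3 hy,
    hsubL (isCuspidal_smul585 _ c1) (isCuspidal_smul585 _ c2) hy,
    maninPairing_smul_left hneg'' _ c1 hy, maninPairing_smul_left hneg'' _ c2 hy,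
    maninPairing_add_right hneg hx (isCuspidal_sub585 (isCuspidal_smul585 _ d1)
      (isCuspidal_smul585 _ d2)) d3,
    hsubR hx (isCuspidal_smul585 _ d1) (isCuspidal_smul585 _ d2),
    maninPairing_smul_right hneg _ hx d1, maninPairing_smul_right hneg _ hx d2, e1, e2, e3]

omit [IsDomain R] in
/-- The operator identity `ξ† (P₁ w₁ + P₂ w₂ + P₃ w₃) = - c_q w₁` on `T_q`-eigenclasses. -/
theorem xiAdj585_old (hHK2 : HK2Statement) (hN : N ≠ 0) [hq : Fact q.Prime] (hqN : ¬ q ∣ N)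
    (aq : R) {w₁ w₂ w₃ : Additive (Gamma0 N) →+ R}
    (h₁ : heckeTransfer hqN w₁ = aq • w₁) (h₂ : heckeTransfer hqN w₂ = aq • w₂)
    (h₃ : heckeTransfer hqN w₃ = aq • w₃) :
    xiAdj585 N q aq (P₁ N q w₁ + P₂ N q w₂ + P₃ N q w₃) =
      (-(((q : R) - 1) * (aq ^ 2 - ((q : R) + 1) ^ 2))) • w₁ := by
  obtain ⟨-, -, -, -, -, -, hTR, hTRH, -⟩ := Fermat.Agent.S41.H281.hkStatement.{0}
  have hk := hHK2 N q hqN hN R
  -- first stage
  have f11 : ∀ w : Additive (Gamma0 N) →+ R, t₁ N q (r₁ N q w) = ((q : R) + 1) • w := by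
    intro w
    rw [(hTR N q hN hq.out hqN R w).1, nsmul_eq_smul585]
    push_cast
    rfl
  have f22 : ∀ w : Additive (Gamma0 N) →+ R, t₂ N q (r₂ N q w) = ((q : R) + 1) • w := by
    intro w
    rw [(hTR N q hN hq.out hqN R w).2, nsmul_eq_smul585]
    push_cast
    rfl
  have f12 : ∀ w : Additive (Gamma0 N) →+ R, t₁ N q (r₂ N q w) = heckeTransfer hqN w :=
    fun w => (hTRH N q hqN hN R w).1
  have f21 : ∀ w : Additive (Gamma0 N) →+ R, t₂ N q (r₁ N q w) = heckeTransfer hqN w :=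
    fun w => (hTRH N q hqN hN R w).2
  -- second stage
  have s11 : ∀ ψ : Additive (Gamma0 (N * q)) →+ R,
      t₁ (N * q) q (r₁ (N * q) q ψ) = (q : R) • ψ := by
    intro ψ
    rw [(hk.2 ψ).1, nsmul_eq_smul585]
  have s22 : ∀ ψ : Additive (Gamma0 (N * q)) →+ R,
      t₂ (N * q) q (r₂ (N * q) q ψ) = (q : R) • ψ := by
    intro ψ
    rw [(hk.2 ψ).2, nsmul_eq_smul585]
  have s122 : ∀ w : Additive (Gamma0 N) →+ R, t₁ (N * q) q (r₂ (N * q) q (r₂ N q w)) =
      r₂ N q (heckeTransfer hqN w) - r₁ N q w := fun w => (hk.1 w).2.1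
  have s211 : ∀ w : Additive (Gamma0 N) →+ R, t₂ (N * q) q (r₁ (N * q) q (r₁ N q w)) =
      r₁ N q (heckeTransfer hqN w) - r₂ N q w := fun w => (hk.1 w).2.2
  have scomm : ∀ w : Additive (Gamma0 N) →+ R,
      r₁ (N * q) q (r₂ N q w) = r₂ (N * q) q (r₁ N q w) := fun w => ((hk.1 w).1).symm
  -- the nine entries
  have q11 : ∀ w : Additive (Gamma0 N) →+ R, t₁ N q (t₁ (N * q) q (P₁ N q w)) = ((q : R) * ((q : R) + 1)) • w := by
    intro w
    rw [P₁, s11, t₁_smul585, f11, smul_smul]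
  have q12 : ∀ w : Additive (Gamma0 N) →+ R, heckeTransfer hqN w = aq • w →
      t₁ N q (t₁ (N * q) q (P₂ N q w)) = ((q : R) * aq) • w := by
    intro w hw
    rw [P₂, s11, t₁_smul585, f12, hw, smul_smul]
  have q13 : ∀ w : Additive (Gamma0 N) →+ R, heckeTransfer hqN w = aq • w →
      t₁ N q (t₁ (N * q) q (P₃ N q w)) = (aq ^ 2 - ((q : R) + 1)) • w := by
    intro w hw
    rw [P₃, s122, t₁_sub585, f12, f11, hw, heckeTransfer_smul585, hw, smul_smul, ← sub_smul,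
      pow_two]
  have q21 : ∀ w : Additive (Gamma0 N) →+ R, heckeTransfer hqN w = aq • w →
      t₂ N q (t₁ (N * q) q (P₁ N q w)) = ((q : R) * aq) • w := by
    intro w hw
    rw [P₁, s11, t₂_smul585, f21, hw, smul_smul]
  have q22 : ∀ w : Additive (Gamma0 N) →+ R, t₂ N q (t₁ (N * q) q (P₂ N q w)) = ((q : R) * ((q : R) + 1)) • w := by
    intro w
    rw [P₂, s11, t₂_smul585, f22, smul_smul]
  have q23 : ∀ w : Additive (Gamma0 N) →+ R, heckeTransfer hqN w = aq • w →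
      t₂ N q (t₁ (N * q) q (P₃ N q w)) = ((q : R) * aq) • w := by
    intro w hw
    rw [P₃, s122, t₂_sub585, f22, f21, hw, smul_smul, ← sub_smul]
    congr 1
    ring
  have q31 : ∀ w : Additive (Gamma0 N) →+ R, heckeTransfer hqN w = aq • w →
      t₂ N q (t₂ (N * q) q (P₁ N q w)) = (aq ^ 2 - ((q : R) + 1)) • w := by
    intro w hw
    rw [P₁, s211, t₂_sub585, f21, f22, hw, heckeTransfer_smul585, hw, smul_smul, ← sub_smul,
      pow_two]
  have q32 : ∀ w : Additive (Gamma0 N) →+ R, heckeTransfer hqN w = aq • w →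
      t₂ N q (t₂ (N * q) q (P₂ N q w)) = ((q : R) * aq) • w := by
    intro w hw
    rw [P₂, scomm, s22, t₂_smul585, f21, hw, smul_smul]
  have q33 : ∀ w : Additive (Gamma0 N) →+ R, t₂ N q (t₂ (N * q) q (P₃ N q w)) = ((q : R) * ((q : R) + 1)) • w := by
    intro w
    rw [P₃, s22, t₂_smul585, f22, smul_smul]
  unfold xiAdj585
  simp only [t₁_add585, t₂_add585, q11, q12 w₂ h₂, q13 w₃ h₃, q21 w₁ h₁, q22, q23 w₃ h₃,
    q31 w₁ h₁, q32 w₂ h₂, q33]
  refine AddMonoidHom.ext fun g => ?_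
  simp only [AddMonoidHom.add_apply, AddMonoidHom.sub_apply, AddMonoidHom.smul_apply,
    smul_eq_mul]
  ring

/-- **The Gram computation.** -/
theorem pairing_xi585_old (hHK2 : HK2Statement) (hN : N ≠ 0) [hq : Fact q.Prime]
    (hqN : ¬ q ∣ N) (aq : R) {x w₁ w₂ w₃ : Additive (Gamma0 N) →+ R} (hx : IsCuspidal x)
    (c₁ : IsCuspidal w₁) (c₂ : IsCuspidal w₂) (c₃ : IsCuspidal w₃)
    (h₁ : heckeTransfer hqN w₁ = aq • w₁) (h₂ : heckeTransfer hqN w₂ = aq • w₂)
    (h₃ : heckeTransfer hqN w₃ = aq • w₃) :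
    maninPairing (Gamma0 (N * q * q)) (xi585 N q aq x)
        (P₁ N q w₁ + P₂ N q w₂ + P₃ N q w₃) =
      -(((q : R) - 1) * (aq ^ 2 - ((q : R) + 1) ^ 2)) * maninPairing (Gamma0 N) x w₁ := by
  have hFI := finiteIndex_Gamma0' hN
  rw [pairing_xi585 hN hq.out aq hx
      (isCuspidal_add585 (isCuspidal_add585 (isCuspidal_P₁585 c₁) (isCuspidal_P₂585 c₂))
        (isCuspidal_P₃585 c₃)),
    xiAdj585_old hHK2 hN hqN aq h₁ h₂ h₃,
    maninPairing_smul_right (neg_one_mem_Gamma0' N) _ hx c₁]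

end Gram

end Fermat.Agent.S59.H585
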