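import Fermat.Agent.S59.NM.Spec
import Fermat.Agent.S59.H585.Adj2
import Fermat.Agent.S41.H281.HK

/-!
# S59, cell NM, leaf STEP, part 1 (helper585): linearity of the Betti operators, eigenclasses

Elementary facts on `r₁ r₂ t₁ t₂`, `heckeTransfer`, `P₁ P₂ P₃` and `NM.IsEigenclass`, used by
`Step.lean` (`boundStep_of`).
-/

set_option autoImplicit false

open CongruenceSubgroup
open scoped MatrixGroups

namespace Fermat.Agent.S59.H585

open Fermat.Agent.S59.NM Fermat.Agent.S41.Spec Fermat.Agent.S29.H642 ModularCurve.Period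

section Lin

variable {R : Type} [CommRing R] {N q : ℕ}

theorem smul_eq_comp_mulLeft585 {n : ℕ} (c : R) (φ : Additive (Gamma0 n) →+ R) :
    c • φ = (AddMonoidHom.mulLeft c).comp φ := rfl

theorem nsmul_eq_smul585 {n : ℕ} (m : ℕ) (φ : Additive (Gamma0 n) →+ R) :
    m • φ = (m : R) • φ := by
  refine AddMonoidHom.ext fun g => ?_
  simp

theorem r₁_add585 {A : Type} [AddCommGroup A] (φ φ' : Additive (Gamma0 N) →+ A) :
    r₁ N q (φ + φ') = r₁ N q φ + r₁ N q φ' := rfl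

theorem r₂_add585 {A : Type} [AddCommGroup A] (φ φ' : Additive (Gamma0 N) →+ A) :
    r₂ N q (φ + φ') = r₂ N q φ + r₂ N q φ' := rfl

theorem r₁_sub585 {A : Type} [AddCommGroup A] (φ φ' : Additive (Gamma0 N) →+ A) :
    r₁ N q (φ - φ') = r₁ N q φ - r₁ N q φ' := rfl

theorem r₂_sub585 {A : Type} [AddCommGroup A] (φ φ' : Additive (Gamma0 N) →+ A) :
    r₂ N q (φ - φ') = r₂ N q φ - r₂ N q φ' := rfl

theorem r₁_smul585 (c : R) (φ : Additive (Gamma0 N) →+ R) :
    r₁ N q (c • φ) = c • r₁ N q φ := rfl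

theorem r₂_smul585 (c : R) (φ : Additive (Gamma0 N) →+ R) :
    r₂ N q (c • φ) = c • r₂ N q φ := rfl

theorem r₁_zero585 {A : Type} [AddCommGroup A] :
    r₁ N q (0 : Additive (Gamma0 N) →+ A) = 0 := rfl

theorem r₂_zero585 {A : Type} [AddCommGroup A] :
    r₂ N q (0 : Additive (Gamma0 N) →+ A) = 0 := rfl

theorem r₁_comp585 {A B : Type} [AddCommGroup A] [AddCommGroup B] (π : A →+ B)
    (φ : Additive (Gamma0 N) →+ A) : r₁ N q (π.comp φ) = π.comp (r₁ N q φ) := rfl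

theorem r₂_comp585 {A B : Type} [AddCommGroup A] [AddCommGroup B] (π : A →+ B)
    (φ : Additive (Gamma0 N) →+ A) : r₂ N q (π.comp φ) = π.comp (r₂ N q φ) := rfl

theorem t₁_add585 {A : Type} [AddCommGroup A] (ψ ψ' : Additive (Gamma0 (N * q)) →+ A) :
    t₁ N q (ψ + ψ') = t₁ N q ψ + t₁ N q ψ' :=
  ((Fermat.Agent.S41.H281.hkStatement.{0}.1 N q A A (AddMonoidHom.id A)).2.1 ψ ψ').1

theorem t₂_add585 {A : Type} [AddCommGroup A] (ψ ψ' : Additive (Gamma0 (N * q)) →+ A) :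
    t₂ N q (ψ + ψ') = t₂ N q ψ + t₂ N q ψ' :=
  ((Fermat.Agent.S41.H281.hkStatement.{0}.1 N q A A (AddMonoidHom.id A)).2.1 ψ ψ').2

theorem t₁_comp585 {A B : Type} [AddCommGroup A] [AddCommGroup B] (π : A →+ B)
    (ψ : Additive (Gamma0 (N * q)) →+ A) : t₁ N q (π.comp ψ) = π.comp (t₁ N q ψ) :=
  ((Fermat.Agent.S41.H281.hkStatement.{0}.1 N q A B π).2.2.2 ψ).1

theorem t₂_comp585 {A B : Type} [AddCommGroup A] [AddCommGroup B] (π : A →+ B)
    (ψ : Additive (Gamma0 (N * q)) →+ A) : t₂ N q (π.comp ψ) = π.comp (t₂ N q ψ) :=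
  ((Fermat.Agent.S41.H281.hkStatement.{0}.1 N q A B π).2.2.2 ψ).2

theorem t₁_smul585 (c : R) (ψ : Additive (Gamma0 (N * q)) →+ R) :
    t₁ N q (c • ψ) = c • t₁ N q ψ := by
  rw [smul_eq_comp_mulLeft585, smul_eq_comp_mulLeft585, t₁_comp585]

theorem t₂_smul585 (c : R) (ψ : Additive (Gamma0 (N * q)) →+ R) :
    t₂ N q (c • ψ) = c • t₂ N q ψ := by
  rw [smul_eq_comp_mulLeft585, smul_eq_comp_mulLeft585, t₂_comp585]

theorem t₁_sub585 (ψ ψ' : Additive (Gamma0 (N * q)) →+ R) :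
    t₁ N q (ψ - ψ') = t₁ N q ψ - t₁ N q ψ' := by
  have h := t₁_add585 (N := N) (q := q) (ψ - ψ') ψ'
  rw [sub_add_cancel] at h
  rw [h, add_sub_cancel_right]

theorem t₂_sub585 (ψ ψ' : Additive (Gamma0 (N * q)) →+ R) :
    t₂ N q (ψ - ψ') = t₂ N q ψ - t₂ N q ψ' := by
  have h := t₂_add585 (N := N) (q := q) (ψ - ψ') ψ'
  rw [sub_add_cancel] at h
  rw [h, add_sub_cancel_right]

theorem heckeTransfer_smul585 {n l : ℕ} [Fact l.Prime] (hl : ¬ l ∣ n) (c : R)
    (φ : Additive (Gamma0 n) →+ R) :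
    heckeTransfer hl (c • φ) = c • heckeTransfer hl φ := by
  rw [smul_eq_comp_mulLeft585, smul_eq_comp_mulLeft585, heckeTransfer_comp]

theorem heckeTransfer_sub585 {n l : ℕ} [Fact l.Prime] (hl : ¬ l ∣ n)
    (φ φ' : Additive (Gamma0 n) →+ R) :
    heckeTransfer hl (φ - φ') = heckeTransfer hl φ - heckeTransfer hl φ' := by
  have h := heckeTransfer_add hl (φ - φ') φ'
  rw [sub_add_cancel] at h
  rw [h, add_sub_cancel_right]

theorem heckeTransfer_zero585 {A : Type} [AddCommGroup A] {n l : ℕ} [Fact l.Prime]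
    (hl : ¬ l ∣ n) : heckeTransfer hl (0 : Additive (Gamma0 n) →+ A) = 0 := by
  have h := heckeTransfer_add hl (0 : Additive (Gamma0 n) →+ A) 0
  rw [add_zero] at h
  exact left_eq_add.mp h

end Lin

/-! ## Cuspidality -/

section Cusp

variable {N q : ℕ}

theorem isCuspidal_r₁585 {A : Type} [AddCommGroup A] {φ : Additive (Gamma0 N) →+ A}
    (h : IsCuspidal φ) : IsCuspidal (r₁ N q φ) :=
  (Fermat.Agent.S41.H281.hkStatement.{0}.2.1 N q A φ h).1

theorem isCuspidal_r₂585 {A : Type} [AddCommGroup A] {φ : Additive (Gamma0 N) →+ A}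
    (h : IsCuspidal φ) : IsCuspidal (r₂ N q φ) :=
  (Fermat.Agent.S41.H281.hkStatement.{0}.2.1 N q A φ h).2

theorem isCuspidal_t₁585 {A : Type} [AddCommGroup A] {ψ : Additive (Gamma0 (N * q)) →+ A}
    (h : IsCuspidal ψ) : IsCuspidal (t₁ N q ψ) :=
  (Fermat.Agent.S41.H281.hkStatement.{0}.2.2.1 N q A ψ h).1

theorem isCuspidal_t₂585 {A : Type} [AddCommGroup A] {ψ : Additive (Gamma0 (N * q)) →+ A}
    (h : IsCuspidal ψ) : IsCuspidal (t₂ N q ψ) :=
  (Fermat.Agent.S41.H281.hkStatement.{0}.2.2.1 N q A ψ h).2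

theorem isCuspidal_P₁585 {A : Type} [AddCommGroup A] {φ : Additive (Gamma0 N) →+ A}
    (h : IsCuspidal φ) : IsCuspidal (P₁ N q φ) :=
  isCuspidal_r₁585 (isCuspidal_r₁585 h)

theorem isCuspidal_P₂585 {A : Type} [AddCommGroup A] {φ : Additive (Gamma0 N) →+ A}
    (h : IsCuspidal φ) : IsCuspidal (P₂ N q φ) :=
  isCuspidal_r₁585 (isCuspidal_r₂585 h)

theorem isCuspidal_P₃585 {A : Type} [AddCommGroup A] {φ : Additive (Gamma0 N) →+ A}
    (h : IsCuspidal φ) : IsCuspidal (P₃ N q φ) :=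
  isCuspidal_r₂585 (isCuspidal_r₂585 h)

theorem isCuspidal_comp585 {A B : Type} [AddCommGroup A] [AddCommGroup B] {n : ℕ} (π : A →+ B)
    {φ : Additive (Gamma0 n) →+ A} (h : IsCuspidal φ) : IsCuspidal (π.comp φ) :=
  ⟨fun γ hγ => by
    show π (φ _) = 0
    rw [h.1 γ hγ, map_zero], fun γ hγ => by
    show π (φ _) = 0
    rw [h.2 γ hγ, map_zero]⟩

theorem isCuspidal_of_comp_injective585 {A B : Type} [AddCommGroup A] [AddCommGroup B] {n : ℕ}
    (π : A →+ B) (hπ : Function.Injective π) {φ : Additive (Gamma0 n) →+ A}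
    (h : IsCuspidal (π.comp φ)) : IsCuspidal φ :=
  ⟨fun γ hγ => hπ (by rw [map_zero]; exact h.1 γ hγ),
    fun γ hγ => hπ (by rw [map_zero]; exact h.2 γ hγ)⟩

theorem isCuspidal_zero585 {A : Type} [AddCommGroup A] {n : ℕ} :
    IsCuspidal (0 : Additive (Gamma0 n) →+ A) :=
  ⟨fun _ _ => rfl, fun _ _ => rfl⟩

theorem isCuspidal_add585 {A : Type} [AddCommGroup A] {n : ℕ} {φ φ' : Additive (Gamma0 n) →+ A}
    (h : IsCuspidal φ) (h' : IsCuspidal φ') : IsCuspidal (φ + φ') :=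
  ⟨fun γ hγ => by
    show φ _ + φ' _ = 0
    rw [h.1 γ hγ, h'.1 γ hγ, add_zero], fun γ hγ => by
    show φ _ + φ' _ = 0
    rw [h.2 γ hγ, h'.2 γ hγ, add_zero]⟩

theorem isCuspidal_sub585 {A : Type} [AddCommGroup A] {n : ℕ} {φ φ' : Additive (Gamma0 n) →+ A}
    (h : IsCuspidal φ) (h' : IsCuspidal φ') : IsCuspidal (φ - φ') :=
  ⟨fun γ hγ => by
    show φ _ - φ' _ = 0
    rw [h.1 γ hγ, h'.1 γ hγ, sub_zero], fun γ hγ => by
    show φ _ - φ' _ = 0
    rw [h.2 γ hγ, h'.2 γ hγ, sub_zero]⟩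

theorem isCuspidal_smul585 {R : Type} [CommRing R] {n : ℕ} (c : R)
    {φ : Additive (Gamma0 n) →+ R} (h : IsCuspidal φ) : IsCuspidal (c • φ) :=
  isCuspidal_comp585 (AddMonoidHom.mulLeft c) h

end Cusp

/-! ## Eigenclasses -/

section Eigen

variable {R : Type} [CommRing R]

theorem isEigenclass_mono585 {n : ℕ} {S S' : Finset ℕ} (hS : S ⊆ S') {a : ℕ → R}
    {x : Additive (Gamma0 n) →+ R} (h : IsEigenclass n S a x) : IsEigenclass n S' a x :=
  ⟨h.1, fun l _ hl hlS => h.2 l hl fun hh => hlS (hS hh)⟩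

theorem isEigenclass_zero585 {n : ℕ} {S : Finset ℕ} {a : ℕ → R} :
    IsEigenclass n S a (0 : Additive (Gamma0 n) →+ R) :=
  ⟨isCuspidal_zero585, fun l _ hl _ => by rw [heckeTransfer_zero585, smul_zero]⟩

theorem isEigenclass_add585 {n : ℕ} {S : Finset ℕ} {a : ℕ → R}
    {x y : Additive (Gamma0 n) →+ R} (hx : IsEigenclass n S a x) (hy : IsEigenclass n S a y) :
    IsEigenclass n S a (x + y) :=
  ⟨isCuspidal_add585 hx.1 hy.1, fun l _ hl hlS => by
    rw [heckeTransfer_add, hx.2 l hl hlS, hy.2 l hl hlS, smul_add]⟩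

theorem isEigenclass_sub585 {n : ℕ} {S : Finset ℕ} {a : ℕ → R}
    {x y : Additive (Gamma0 n) →+ R} (hx : IsEigenclass n S a x) (hy : IsEigenclass n S a y) :
    IsEigenclass n S a (x - y) :=
  ⟨isCuspidal_sub585 hx.1 hy.1, fun l _ hl hlS => by
    rw [heckeTransfer_sub585, hx.2 l hl hlS, hy.2 l hl hlS, smul_sub]⟩

theorem isEigenclass_smul585 {n : ℕ} {S : Finset ℕ} {a : ℕ → R} (c : R)
    {x : Additive (Gamma0 n) →+ R} (hx : IsEigenclass n S a x) :
    IsEigenclass n S a (c • x) :=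
  ⟨isCuspidal_smul585 c hx.1, fun l _ hl hlS => by
    rw [heckeTransfer_smul585, hx.2 l hl hlS, smul_comm]⟩

/-- Eigenclasses map to eigenclasses under a ring homomorphism of the coefficients. -/
theorem isEigenclass_map585 {R' : Type} [CommRing R'] (f : R →+* R') {n : ℕ} {S : Finset ℕ}
    {a : ℕ → R} {x : Additive (Gamma0 n) →+ R} (hx : IsEigenclass n S a x) :
    IsEigenclass n S (fun l => f (a l)) (f.toAddMonoidHom.comp x) :=
  ⟨isCuspidal_comp585 _ hx.1, fun l _ hl hlS => by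
    rw [heckeTransfer_comp, hx.2 l hl hlS]
    refine AddMonoidHom.ext fun g => ?_
    show f (a l * x g) = f (a l) * f (x g)
    rw [map_mul]⟩

/-- Descent of eigenclasses along an injective ring homomorphism of the coefficients. -/
theorem isEigenclass_of_map585 {R' : Type} [CommRing R'] (f : R →+* R')
    (hf : Function.Injective f) {n : ℕ} {S : Finset ℕ}
    {a : ℕ → R} {x : Additive (Gamma0 n) →+ R}
    (hx : IsEigenclass n S (fun l => f (a l)) (f.toAddMonoidHom.comp x)) :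
    IsEigenclass n S a x :=
  ⟨isCuspidal_of_comp_injective585 f.toAddMonoidHom hf hx.1, fun l _ hl hlS => by
    have h := hx.2 l hl hlS
    rw [heckeTransfer_comp] at h
    refine AddMonoidHom.ext fun g => hf ?_
    have hg := DFunLike.congr_fun h g
    show f (heckeTransfer hl x g) = f (a l * x g)
    rw [map_mul]
    exact hg⟩

variable {N q : ℕ}

theorem not_dvd_of_not_dvd_mul585 {l a b : ℕ} (h : ¬ l ∣ a * b) : ¬ l ∣ a :=
  fun hh => h (dvd_mul_of_dvd_left hh b)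

theorem heckeTransfer_r₁585 {A : Type} [AddCommGroup A] {l : ℕ} [Fact l.Prime]
    (hl' : ¬ l ∣ N * q) (φ : Additive (Gamma0 N) →+ A) :
    heckeTransfer hl' (r₁ N q φ) = r₁ N q (heckeTransfer (not_dvd_of_not_dvd_mul585 hl') φ) :=
  (Fermat.Agent.S41.H281.hkStatement.{0}.2.2.2.2.1 N q l
    (not_dvd_of_not_dvd_mul585 hl') hl' A φ).1

theorem heckeTransfer_r₂585 {A : Type} [AddCommGroup A] {l : ℕ} [Fact l.Prime]
    (hl' : ¬ l ∣ N * q) (φ : Additive (Gamma0 N) →+ A) :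
    heckeTransfer hl' (r₂ N q φ) = r₂ N q (heckeTransfer (not_dvd_of_not_dvd_mul585 hl') φ) :=
  (Fermat.Agent.S41.H281.hkStatement.{0}.2.2.2.2.1 N q l
    (not_dvd_of_not_dvd_mul585 hl') hl' A φ).2

/-- `r₁` maps eigenclasses of level `N` to eigenclasses of level `N q` (away from `S ∪ {q}`). -/
theorem isEigenclass_r₁585 {S : Finset ℕ} {a : ℕ → R} {x : Additive (Gamma0 N) →+ R}
    (hx : IsEigenclass N (insert q S) a x) : IsEigenclass (N * q) (insert q S) a (r₁ N q x) :=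
  ⟨isCuspidal_r₁585 hx.1, fun l _ hl hlS => by
    rw [heckeTransfer_r₁585, hx.2 l (not_dvd_of_not_dvd_mul585 hl) hlS, r₁_smul585]⟩

theorem isEigenclass_r₂585 {S : Finset ℕ} {a : ℕ → R} {x : Additive (Gamma0 N) →+ R}
    (hx : IsEigenclass N (insert q S) a x) : IsEigenclass (N * q) (insert q S) a (r₂ N q x) :=
  ⟨isCuspidal_r₂585 hx.1, fun l _ hl hlS => by
    rw [heckeTransfer_r₂585, hx.2 l (not_dvd_of_not_dvd_mul585 hl) hlS, r₂_smul585]⟩

theorem isEigenclass_P₁585 {S : Finset ℕ} {a : ℕ → R} {x : Additive (Gamma0 N) →+ R}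
    (hx : IsEigenclass N (insert q S) a x) :
    IsEigenclass (N * q * q) (insert q S) a (P₁ N q x) :=
  isEigenclass_r₁585 (isEigenclass_r₁585 hx)

theorem isEigenclass_P₂585 {S : Finset ℕ} {a : ℕ → R} {x : Additive (Gamma0 N) →+ R}
    (hx : IsEigenclass N (insert q S) a x) :
    IsEigenclass (N * q * q) (insert q S) a (P₂ N q x) :=
  isEigenclass_r₁585 (isEigenclass_r₂585 hx)

theorem isEigenclass_P₃585 {S : Finset ℕ} {a : ℕ → R} {x : Additive (Gamma0 N) →+ R}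
    (hx : IsEigenclass N (insert q S) a x) :
    IsEigenclass (N * q * q) (insert q S) a (P₃ N q x) :=
  isEigenclass_r₂585 (isEigenclass_r₂585 hx)

end Eigen

end Fermat.Agent.S59.H585
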